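import Fermat.Agent.SS.GM2.Defs
import Fermat.Agent.SS.GM2.Frob
import Fermat.Agent.SS.Formal.AL
import Fermat.Agent.SS.Formal.Red
import Fermat.Agent.Crux.Dvr
import Fermat.Agent.Crux.Descent

/-!
# SS / GM2 / Desc : Step 1 of the descent, the renormalisation  (TASK `SS/GM2-Desc-Renorm`)

`RedConst A u`, `RedConst A (w u)` give `c c' ∈ ℚ̄^×` with `c u ≡ 1`, `c' w(u) ≡ 1` for the Gauss
valuation `v_∞` of `A((t))`.  We want `t ∈ F_N^×` with `u t^m ≡ 1` and `w (u t^m) ≡ 1`.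

PROOF.  `J = α(j_M) = j(t^M)`, `Y = β(j_M) = j(t^{Mq}) = w J`, `w Y = J`.
`𝔲 = Y - J^q`, `𝔲' = w 𝔲 = J - Y^q`.
* `𝔲 = q · s`, `s ∈ ℤ((t))`  (in characteristic `q`: `V_q f = f^q` for `f ∈ 𝔽_q((t))`; then divide
  coefficientwise);
* the reduction of `𝔲'` is `J̄ - J̄^(q²) ≠ 0` (orders `-M ≠ -M q²`), so the reduction of
  `D_n := 𝔲^n + 𝔲'^n` is `(red 𝔲')^n ≠ 0` for `n ≥ 1`;
* `ε_n := 𝔲'^n / D_n`, `1 - ε_n = 𝔲^n / D_n = q^n · (s^n / D_n)`, `w ε_n = 1 - ε_n`;
* for every `d ∈ ℚ̄` there is `n` with `d q^n ∈ 𝔪_A` (`d` is algebraic: `a d` is integral over `ℤ` for some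
  `a ∈ ℤ \ 0`, `a = q^s a'`, `a'` a unit of `A`); hence `RedTo A (cst d * (1 - ε_n)) 0`;
* `α^m = c`, `β^m = c'` (`IsAlgClosed.exists_pow_nat_eq`), `t := α ε_n + β (1 - ε_n)`:
  `t / α = 1 + (β/α - 1)(1 - ε_n) ≡ 1`,  `w t / β = 1 + (α/β - 1)(1 - ε_n) ≡ 1`.
  (needs `RedTo.add`, to be proved here: `y₁ z₂ + z₁ y₂` over `y₂ z₂`.)
* `u t^m = (c u) (t/α)^m ≡ 1`, `w (u t^m) = (c' w u) (w t/β)^m ≡ 1`.
-/

set_option autoImplicit false

open AlgebraicCurve ModularCurve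

namespace Fermat.Agent.SS.GM2

open Fermat.Agent.ES
open Fermat.Agent.S28 (V J)
open Fermat.Agent.Crux.GM (castS)

namespace Renorm

variable {A : ValuationSubring Qb}

theorem redTo_add {x x' : LaurentSeries Qb} {r r' : LaurentSeries (kA A)}
    (h : RedTo A x r) (h' : RedTo A x' r') : RedTo A (x + x') (r + r') := by
  obtain ⟨y₁, y₂, h0, h1, h2⟩ := h
  obtain ⟨z₁, z₂, k0, k1, k2⟩ := h'
  refine ⟨y₁ * z₂ + z₁ * y₂, y₂ * z₂, ?_, ?_, ?_⟩
  · rw [map_mul]; exact mul_ne_zero h0 k0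
  · rw [map_add, map_mul, map_mul, map_mul, ← h1, ← k1]; ring
  · rw [map_add, map_mul, map_mul, map_mul, h2, k2]; ring

theorem redTo_castS (xh : LaurentSeries ℤ) : RedTo A (castS Qb xh) (castS (kA A) xh) := by
  refine ⟨castS A xh, 1, ?_, ?_, ?_⟩
  · rw [map_one]; exact one_ne_zero
  · rw [map_one, mul_one, Fermat.Agent.Crux.GM.coeffMap_castS]
  · rw [map_one, mul_one, Fermat.Agent.Crux.GM.coeffMap_castS]

theorem redTo_small {x : LaurentSeries Qb} {r : LaurentSeries (kA A)} (a : A)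
    (ha : resA A a = 0) (h : RedTo A x r) : RedTo A (cst (a : Qb) * x) 0 := by
  refine ((RedTo.cst_of_mem a).mul h).congr rfl ?_
  rw [ha, cstk, map_zero, zero_mul]

theorem redTo_of_redConst {N : ℕ} {u : FF N} (h : RedConst A u) :
    ∃ c : Qb, c ≠ 0 ∧ RedTo A (cst c * (u : LaurentSeries Qb)) 1 := by
  obtain ⟨c, y₁, y₂, hc, -, -, heq, hne, e⟩ := h
  exact ⟨c, hc, y₁, y₂, hne, e, by rw [heq, one_mul]⟩

/-- an integer prime to `q` is a unit of `A`. -/
theorem inv_intCast_mem {q : ℕ} (hq : q.Prime) (hA : A.LiesOverPrime q) (a : ℤ)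
    (ha : ¬ (q : ℤ) ∣ a) : ((a : Qb))⁻¹ ∈ A := by
  have hcop : IsCoprime a (q : ℤ) :=
    ((Nat.prime_iff_prime_int.mp hq).coprime_iff_not_dvd.mpr ha).symm
  obtain ⟨x, y, hxy⟩ := hcop
  have hres : resA A (a : A) ≠ 0 := by
    intro h0
    have h1 := congrArg (fun z : ℤ => resA A (z : A)) hxy
    simp only [Int.cast_add, Int.cast_mul, map_add, map_mul, h0, mul_zero, zero_add,
      Int.cast_one, map_one, Int.cast_natCast] at h1
    have h2 : resA A ((q : ℕ) : A) = 0 := Fermat.Agent.Crux.residue_natCast_eq_zero A hA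
    rw [h2, mul_zero] at h1
    exact zero_ne_one h1
  have hu : IsUnit (a : A) := by
    by_contra hu
    exact hres ((IsLocalRing.residue_eq_zero_iff _).mpr ((IsLocalRing.mem_maximalIdeal _).mpr hu))
  obtain ⟨v, hv⟩ := hu
  have h3 : (((v⁻¹ : Aˣ) : A) : Qb) = ((a : Qb))⁻¹ := by
    have h4 : ((v : A) : Qb) * (((v⁻¹ : Aˣ) : A) : Qb) = 1 := by
      exact_mod_cast congrArg Subtype.val v.mul_inv
    rw [hv] at h4
    have h5 : (((a : A)) : Qb) = (a : Qb) := by simp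
    rw [h5] at h4
    exact eq_inv_of_mul_eq_one_right h4
  rw [← h3]
  exact ((v⁻¹ : Aˣ) : A).2

/-- the `q`-adic valuation on `ℚ̄` is archimedean (rank one). -/
theorem exists_pow_small {q : ℕ} (hq : q.Prime) (hA : A.LiesOverPrime q) (d : Qb) :
    ∃ n : ℕ, ∀ k : ℕ, n ≤ k → ∃ a : A, (a : Qb) = d * (q : Qb) ^ k ∧ resA A a = 0 := by
  have hACl : IsAlgClosure ℚ Qb :=
    (inferInstance : @IsAlgClosure ℚ (AlgebraicClosure ℚ) _ _ (AlgebraicClosure.instAlgebra ℚ) _)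
  have halgQ : Algebra.IsAlgebraic ℚ Qb := hACl.isAlgebraic
  have halg : IsAlgebraic ℤ d :=
    (IsFractionRing.isAlgebraic_iff ℤ ℚ Qb).mpr (halgQ.isAlgebraic d)
  obtain ⟨a, ha0, hint⟩ := halg.exists_integral_multiple
  have hfin : FiniteMultiplicity (q : ℤ) a := by
    rw [Int.finiteMultiplicity_iff]
    refine ⟨?_, ha0⟩
    rw [Int.natAbs_natCast]
    exact hq.one_lt.ne'
  obtain ⟨a', ha', hndvd⟩ := hfin.exists_eq_pow_mul_and_not_dvd
  set s := multiplicity (q : ℤ) a with hs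
  have hinv := inv_intCast_mem hq hA a' hndvd
  have hmem : a • d ∈ A := Fermat.Agent.Crux.mem_of_isIntegral_int A hint
  have ha'0 : (a' : Qb) ≠ 0 := by
    intro h
    have : a' = 0 := by exact_mod_cast h
    exact hndvd (this ▸ dvd_zero _)
  refine ⟨s + 1, fun k hk => ?_⟩
  refine ⟨(⟨a • d, hmem⟩ : A) * (⟨_, hinv⟩ : A) * ((q : ℕ) : A) ^ (k - s), ?_, ?_⟩
  · obtain ⟨j, rfl⟩ : ∃ j, k = s + j := ⟨k - s, by omega⟩
    have e1 : a • d = (q : Qb) ^ s * (a' : Qb) * d := by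
      rw [zsmul_eq_mul, ha']
      push_cast
      ring
    rw [add_tsub_cancel_left]
    have e2 : (((⟨a • d, hmem⟩ : A) * (⟨_, hinv⟩ : A) * ((q : ℕ) : A) ^ j : A) : Qb)
        = (a • d) * ((a' : Qb))⁻¹ * (q : Qb) ^ j := by
      push_cast
      rfl
    rw [e2, e1, pow_add]
    field_simp
  · have h2 : resA A ((q : ℕ) : A) = 0 := Fermat.Agent.Crux.residue_natCast_eq_zero A hA
    rw [map_mul, map_pow, h2, zero_pow (by omega), mul_zero]

/-- a series of `ℤ((t))` which vanishes modulo `q` is divisible by `q`. -/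
theorem exists_div {q : ℕ} [NeZero q] (xh : LaurentSeries ℤ) (h : castS (ZMod q) xh = 0) :
    ∃ s : LaurentSeries ℤ, castS Qb xh = cst (q : Qb) * castS Qb s := by
  let f : ZeroHom ℤ ℤ := ⟨fun z => z / (q : ℤ), Int.zero_ediv _⟩
  refine ⟨xh.map f, ?_⟩
  ext n
  rw [coeff_cst_mul, coeffMap_coeff, coeffMap_coeff, HahnSeries.map_coeff]
  have h1 : ((xh.coeff n : ℤ) : ZMod q) = 0 := by
    have := congrArg (fun y => y.coeff n) h
    simpa [coeffMap_coeff] using this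
  rw [ZMod.intCast_zmod_eq_zero_iff_dvd] at h1
  obtain ⟨c, hc⟩ := h1
  show ((xh.coeff n : ℤ) : Qb) = (q : Qb) * (((xh.coeff n) / (q : ℤ) : ℤ) : Qb)
  rw [hc, Int.mul_ediv_cancel_left _ (by exact_mod_cast NeZero.ne q)]
  push_cast
  ring

end Renorm

theorem exists_renorm (M q m : ℕ) [NeZero M] [NeZero q] (hq : q.Prime) (hqM : ¬ q ∣ M)
    (hm : 0 < m) (A : ValuationSubring Qb) (hA : A.LiesOverPrime q)
    (w : FF (M * q) →ₐ[Qb] FF (M * q)) (hw : IsAL M q w) (u : FF (M * q))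
    (h1 : RedConst A u) (h2 : RedConst A (w u)) :
    ∃ t : FF (M * q), t ≠ 0 ∧
      RedTo A ((u * t ^ m : FF (M * q)) : LaurentSeries Qb) 1 ∧
      RedTo A ((w (u * t ^ m) : FF (M * q)) : LaurentSeries Qb) 1 := by
  classical
  have : Fact q.Prime := ⟨hq⟩
  have := charP_kA hq hA
  obtain ⟨c, hc, hcu⟩ := Renorm.redTo_of_redConst h1
  obtain ⟨c', hc', hcu'⟩ := Renorm.redTo_of_redConst h2
  obtain ⟨α, hα⟩ := IsAlgClosed.exists_pow_nat_eq c hm
  obtain ⟨β, hβ⟩ := IsAlgClosed.exists_pow_nat_eq c' hm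
  have hα0 : α ≠ 0 := by
    rintro rfl
    rw [zero_pow hm.ne'] at hα
    exact hc hα.symm
  have hβ0 : β ≠ 0 := by
    rintro rfl
    rw [zero_pow hm.ne'] at hβ
    exact hc' hβ.symm
  -- the functions `J`, `Y`
  set jM : FF M := Fermat.Agent.S24.jF M M dvd_rfl with hjMdef
  have hjM : (jM : LaurentSeries Qb) = castS Qb (Jh M) := by
    rw [Fermat.Agent.Crux.GM.CoordJ.castS_VJ]
    show coeffEmb Qb (qExpand ℚ M jq) = _
    rw [coeffEmb, coeffMap_qExpand, ← jqModC_rat, coeffMap_jqModC]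
  set Jf : FF (M * q) := heckeAlphaBar Qb M q jM with hJfdef
  set Yf : FF (M * q) := heckeBetaBar Qb M q jM with hYfdef
  have hJ : (Jf : LaurentSeries Qb) = castS Qb (Jh M) := by
    rw [hJfdef, coe_heckeAlphaBar, hjM]
  have hY : (Yf : LaurentSeries Qb) = castS Qb (Jh (M * q)) := by
    rw [hYfdef, coe_heckeBetaBar, hjM]
    have e1 : Jh (M * q) = V ℤ q (Jh M) := by
      show qExpand ℤ (M * q) (J ℤ) = qExpand ℤ q (qExpand ℤ M (J ℤ))
      rw [qExpand_qExpand]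
      exact qExpand_congr (mul_comm M q) _
    rw [e1]
    exact (Fermat.Agent.ES.coeffMap_Vq (Int.castRingHom Qb) q (Jh M)).symm
  set U : FF (M * q) := Yf - Jf ^ q with hUdef
  set U' : FF (M * q) := Jf - Yf ^ q with hU'def
  have hwU : w U = U' := by
    rw [hUdef, hU'def, map_sub, map_pow, hJfdef, hYfdef, hw.alpha, hw.beta]
  have hwU' : w U' = U := by
    rw [hUdef, hU'def, map_sub, map_pow, hJfdef, hYfdef, hw.alpha, hw.beta]
  have hU : (U : LaurentSeries Qb) = castS Qb (uh M q) := by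
    have : (U : LaurentSeries Qb) = (Yf : LaurentSeries Qb) - (Jf : LaurentSeries Qb) ^ q := rfl
    rw [this, hJ, hY, uh]
    simp only [castS, map_sub, map_pow]
  have hU' : (U' : LaurentSeries Qb) = castS Qb (uh' M q) := by
    have : (U' : LaurentSeries Qb) = (Jf : LaurentSeries Qb) - (Yf : LaurentSeries Qb) ^ q := rfl
    rw [this, hJ, hY, uh']
    simp only [castS, map_sub, map_pow]
  obtain ⟨s, hs⟩ := Renorm.exists_div (q := q) (uh M q) (castS_uh (ZMod q) q M)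
  obtain ⟨n₁, hn₁⟩ := Renorm.exists_pow_small hq hA ((β - α) / α)
  obtain ⟨n₂, hn₂⟩ := Renorm.exists_pow_small hq hA ((α - β) / β)
  set n := max n₁ n₂ + 1 with hn
  set D : FF (M * q) := U ^ n + U' ^ n with hDdef
  have hwD : w D = D := by
    rw [hDdef, map_add, map_pow, map_pow, hwU, hwU', add_comm]
  set r' := castS (kA A) (uh' M q) with hr'def
  have hr' : r' ≠ 0 := castS_uh'_ne_zero (kA A) q M
  have hDred : RedTo A (D : LaurentSeries Qb) (r' ^ n) := by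
    have a1 := (Renorm.redTo_castS (A := A) (uh M q)).pow n
    have a2 := (Renorm.redTo_castS (A := A) (uh' M q)).pow n
    refine (Renorm.redTo_add a1 a2).congr ?_ ?_
    · rw [← hU, ← hU']
      rfl
    · rw [castS_uh (kA A) q M, zero_pow (by omega), zero_add]
  have hzero : RedTo A (0 : LaurentSeries Qb) 0 := by
    refine ⟨0, 1, ?_, ?_, ?_⟩
    · rw [map_one]; exact one_ne_zero
    · simp
    · simp
  have hD0 : D ≠ 0 := by
    intro h0
    rw [h0] at hDred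
    exact pow_ne_zero n hr' (hDred.unique hzero)
  set δ : FF (M * q) := U ^ n * D⁻¹ with hδdef
  have hwδ : w δ = 1 - δ := by
    rw [hδdef, map_mul, map_inv₀, map_pow, hwU, hwD]
    have : U' ^ n = D - U ^ n := by rw [hDdef]; ring
    rw [this]
    field_simp
  have hδred : ∀ e : Qb, (∃ a : A, (a : Qb) = e * (q : Qb) ^ n ∧ resA A a = 0) →
      RedTo A (cst e * (δ : LaurentSeries Qb)) 0 := by
    rintro e ⟨a, ha, ha0⟩
    have b1 := ((Renorm.redTo_castS (A := A) s).pow n).mul (hDred.inv (pow_ne_zero n hr'))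
    refine (Renorm.redTo_small a ha0 b1).congr ?_ rfl
    have e1 : (δ : LaurentSeries Qb) = (U : LaurentSeries Qb) ^ n * (D : LaurentSeries Qb)⁻¹ := rfl
    rw [ha, e1, hU, hs, mul_pow, cst, cst, map_mul, map_pow]
    ring
  have hone : ∀ e : Qb, (∃ a : A, (a : Qb) = e * (q : Qb) ^ n ∧ resA A a = 0) →
      RedTo A ((1 + cst e * (δ : LaurentSeries Qb)) ^ m) 1 := by
    intro e he
    refine ((Renorm.redTo_add RedTo.one (hδred e he)).pow m).congr rfl ?_
    rw [add_zero, one_pow]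
  set t : FF (M * q) := algebraMap Qb (FF (M * q)) α *
    (1 + algebraMap Qb (FF (M * q)) ((β - α) / α) * δ) with htdef
  have hwt : w t = algebraMap Qb (FF (M * q)) β *
      (1 + algebraMap Qb (FF (M * q)) ((α - β) / β) * δ) := by
    rw [htdef, map_mul, map_add, map_mul, map_one, AlgHom.commutes, AlgHom.commutes, hwδ,
      map_div₀, map_div₀, map_sub, map_sub]
    have ha : algebraMap Qb (FF (M * q)) α ≠ 0 := by
      rw [Ne, map_eq_zero]; exact hα0
    have hb : algebraMap Qb (FF (M * q)) β ≠ 0 := by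
      rw [Ne, map_eq_zero]; exact hβ0
    field_simp
    ring
  have r1 : RedTo A ((u * t ^ m : FF (M * q)) : LaurentSeries Qb) 1 := by
    refine (hcu.mul (hone _ (hn₁ n (by omega)))).congr ?_ (one_mul 1)
    have e1 : ((u * t ^ m : FF (M * q)) : LaurentSeries Qb) = (u : LaurentSeries Qb) *
        (cst α * (1 + cst ((β - α) / α) * (δ : LaurentSeries Qb))) ^ m := rfl
    rw [e1, mul_pow, ← hα, cst, cst, map_pow]
    ring
  have r2 : RedTo A ((w (u * t ^ m) : FF (M * q)) : LaurentSeries Qb) 1 := by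
    refine (hcu'.mul (hone _ (hn₂ n (by omega)))).congr ?_ (one_mul 1)
    have e1 : ((w (u * t ^ m) : FF (M * q)) : LaurentSeries Qb) = (w u : LaurentSeries Qb) *
        (cst β * (1 + cst ((α - β) / β) * (δ : LaurentSeries Qb))) ^ m := by
      rw [map_mul, map_pow, hwt]
      rfl
    rw [e1, mul_pow, ← hβ, cst, cst, map_pow]
    ring
  refine ⟨t, ?_, r1, r2⟩
  intro h0
  rw [h0, zero_pow hm.ne', mul_zero] at r1
  exact one_ne_zero (r1.unique hzero)

end Fermat.Agent.SS.GM2
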