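import Fermat.Agent.S24.FF.PlacePrime

/-!
# SS / GM2 / Desc : Step 2 of the descent, `1 ∈ I_m(W) I_m(W⁻¹)`   (TASK `SS/GM2-Desc-InvK`)

General function field `F / K`, `y ∈ F` with `[F : K(y)] < ∞`, `B = Sy K y` the integral closure of
`K[y] = Ry K y` in `F`: a Dedekind domain with fraction field `F` (`S24/FF/Setup.lean`).
If all `ord_P W` are divisible by `m` then the fractional ideal `(W)` is an `m`-th power `𝔞^m`
(`placeOf`, `placeOf_ord`: `ord_{placeOf P} W = - log (P.valuation F W)`;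
`Mathlib/RingTheory/DedekindDomain/Factorization.lean`: `FractionalIdeal.count`,
`FractionalIdeal.finprod_heightOneSpectrum_factorization'`), and `1 ∈ 𝔞⁻¹ 𝔞` gives `a_i ∈ 𝔞⁻¹`, `b_i ∈ 𝔞`
with `∑ a_i b_i = 1`, `a_i^m ∈ (W)⁻¹`, `b_i^m ∈ (W)`.
-/

set_option autoImplicit false

open AlgebraicCurve IntermediateField IsDedekindDomain

namespace Fermat.Agent.SS.GM2

open Fermat.Agent.S24.FF (Ry Sy)

section Dedekind

open FractionalIdeal nonZeroDivisors

variable {R₀ K₀ : Type*} [CommRing R₀] [IsDedekindDomain R₀] [Field K₀] [Algebra R₀ K₀]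
  [IsFractionRing R₀ K₀]

/-- (helper) the exponent of `v` in a principal fractional ideal. -/
theorem InvK_count_spanSingleton (v : HeightOneSpectrum R₀) {W : K₀} (hW : W ≠ 0) :
    FractionalIdeal.count K₀ v (spanSingleton R₀⁰ W) = -(WithZero.log (v.valuation K₀ W)) := by
  classical
  obtain ⟨s, t, ht, rfl⟩ := IsFractionRing.div_surjective (A := R₀) W
  have ht0 : t ≠ 0 := nonZeroDivisors.ne_zero ht
  have hs0 : s ≠ 0 := by
    rintro rfl
    rw [map_zero, zero_div] at hW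
    exact hW rfl
  have hI : spanSingleton R₀⁰ (algebraMap R₀ K₀ s / algebraMap R₀ K₀ t) ≠ 0 :=
    spanSingleton_ne_zero_iff.2 hW
  have h1 : spanSingleton R₀⁰ (algebraMap R₀ K₀ s / algebraMap R₀ K₀ t)
      = spanSingleton R₀⁰ (algebraMap R₀ K₀ t)⁻¹ * ((Ideal.span {s} : Ideal R₀) :
        FractionalIdeal R₀⁰ K₀) := by
    rw [coeIdeal_span_singleton, spanSingleton_mul_spanSingleton, div_eq_inv_mul]
  rw [count_well_defined K₀ v hI h1, map_div₀, v.valuation_of_algebraMap,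
    v.valuation_of_algebraMap, v.intValuation_if_neg hs0, v.intValuation_if_neg ht0,
    ← WithZero.exp_sub, WithZero.log_exp]
  ring

/-- (helper) powers of elements lie in powers of ideals. -/
theorem InvK_pow_mem_pow {J : FractionalIdeal R₀⁰ K₀} {x : K₀} (hx : x ∈ J) (n : ℕ) :
    x ^ n ∈ J ^ n := by
  induction n with
  | zero => rw [pow_zero, pow_zero]; exact one_mem_one _
  | succ n ih => rw [pow_succ, pow_succ]; exact mul_mem_mul ih hx

omit [IsDedekindDomain R₀] [IsFractionRing R₀ K₀] in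
/-- (helper) elements of a product of fractional ideals. -/
theorem InvK_exists_sum {I J : FractionalIdeal R₀⁰ K₀} {x : K₀} (hx : x ∈ I * J) :
    ∃ (n : ℕ) (a b : Fin n → K₀), (∀ i, a i ∈ I) ∧ (∀ i, b i ∈ J) ∧ ∑ i, a i * b i = x := by
  refine FractionalIdeal.mul_induction_on hx ?_ ?_
  · intro i hi j hj
    exact ⟨1, fun _ => i, fun _ => j, fun _ => hi, fun _ => hj, by simp⟩
  · rintro x y ⟨n, a, b, ha, hb, rfl⟩ ⟨n', a', b', ha', hb', rfl⟩
    refine ⟨n + n', Fin.append a a', Fin.append b b', ?_, ?_, ?_⟩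
    · intro i
      refine Fin.addCases (fun i => ?_) (fun i => ?_) i
      · rw [Fin.append_left]; exact ha i
      · rw [Fin.append_right]; exact ha' i
    · intro i
      refine Fin.addCases (fun i => ?_) (fun i => ?_) i
      · rw [Fin.append_left]; exact hb i
      · rw [Fin.append_right]; exact hb' i
    · rw [Fin.sum_univ_add]
      simp only [Fin.append_left, Fin.append_right]

/-- (helper) the statement for a Dedekind domain. -/
theorem InvK_core (m : ℕ) (hm : 0 < m) (W : K₀) (hW : W ≠ 0)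
    (hdiv : ∀ v : HeightOneSpectrum R₀, (m : ℤ) ∣ WithZero.log (v.valuation K₀ W)) :
    ∃ (n : ℕ) (a b : Fin n → K₀),
      (∀ i, ∃ z : R₀, algebraMap R₀ K₀ z = a i ^ m * W) ∧
      (∀ i, ∃ z : R₀, algebraMap R₀ K₀ z = b i ^ m * W⁻¹) ∧ ∑ i, a i * b i = 1 := by
  classical
  have hI : spanSingleton R₀⁰ W ≠ 0 := spanSingleton_ne_zero_iff.2 hW
  have hm0 : (m : ℤ) ≠ 0 := by exact_mod_cast hm.ne'
  -- the `m`-th root
  obtain ⟨𝔞, h𝔞⟩ : ∃ 𝔞 : FractionalIdeal R₀⁰ K₀, 𝔞 ^ m = spanSingleton R₀⁰ W := by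
    refine ⟨∏ᶠ v : HeightOneSpectrum R₀, (v.asIdeal : FractionalIdeal R₀⁰ K₀) ^
      (FractionalIdeal.count K₀ v (spanSingleton R₀⁰ W) / m), ?_⟩
    rw [finprod_pow]
    · conv_rhs => rw [← finprod_heightOneSpectrum_factorization' K₀ hI]
      refine finprod_congr fun v => ?_
      rw [← zpow_natCast, ← zpow_mul, Int.ediv_mul_cancel]
      rw [InvK_count_spanSingleton v hW]
      exact (dvd_neg).2 (hdiv v)
    · refine (FractionalIdeal.finite_factors (spanSingleton R₀⁰ W)).subset ?_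
      intro v hv h0
      apply hv
      have h1 : FractionalIdeal.count K₀ v (spanSingleton R₀⁰ W) = 0 := h0
      change (v.asIdeal : FractionalIdeal R₀⁰ K₀) ^
        (FractionalIdeal.count K₀ v (spanSingleton R₀⁰ W) / m) = 1
      rw [h1, Int.zero_ediv, zpow_zero]
  have h𝔞0 : 𝔞 ≠ 0 := by
    rintro rfl
    rw [zero_pow hm.ne'] at h𝔞
    exact hI h𝔞.symm
  have h1 : (1 : K₀) ∈ 𝔞⁻¹ * 𝔞 := by
    rw [inv_mul_cancel₀ h𝔞0]
    exact one_mem_one _
  obtain ⟨n, a, b, ha, hb, hsum⟩ := InvK_exists_sum h1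
  refine ⟨n, a, b, fun i => ?_, fun i => ?_, hsum⟩
  · have h2 := InvK_pow_mem_pow (ha i) m
    rw [inv_pow, h𝔞, spanSingleton_inv, mem_spanSingleton] at h2
    obtain ⟨z, hz⟩ := h2
    refine ⟨z, ?_⟩
    rw [← hz, Algebra.smul_def, mul_assoc, inv_mul_cancel₀ hW, mul_one]
  · have h2 := InvK_pow_mem_pow (hb i) m
    rw [h𝔞, mem_spanSingleton] at h2
    obtain ⟨z, hz⟩ := h2
    refine ⟨z, ?_⟩
    rw [← hz, Algebra.smul_def, mul_assoc, mul_inv_cancel₀ hW, mul_one]

end Dedekind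

theorem exists_invK_gen {K F : Type*} [Field K] [Field F] [Algebra K F] [CharZero K] (y : F)
    [FiniteDimensional K⟮y⟯ F] (m : ℕ) (hm : 0 < m) (W : F) (hW : W ≠ 0)
    (hdiv : ∀ P : Place K F, (m : ℤ) ∣ P.ord W) :
    ∃ (n : ℕ) (a b : Fin n → F),
      (∀ i, IsIntegral (Ry K y) (a i ^ m * W)) ∧ (∀ i, IsIntegral (Ry K y) (b i ^ m * W⁻¹)) ∧
      ∑ i, a i * b i = 1 := by
  obtain ⟨n, a, b, ha, hb, hsum⟩ := InvK_core (R₀ := Sy K y) (K₀ := F) m hm W hW (by
    intro v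
    have h1 := hdiv (Fermat.Agent.S24.FF.placeOf K y v)
    rw [Fermat.Agent.S24.FF.placeOf_ord] at h1
    exact (dvd_neg).1 h1)
  refine ⟨n, a, b, fun i => ?_, fun i => ?_, hsum⟩
  · obtain ⟨z, hz⟩ := ha i
    rw [← hz]
    exact z.2
  · obtain ⟨z, hz⟩ := hb i
    rw [← hz]
    exact z.2

end Fermat.Agent.SS.GM2
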