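import Fermat.Agent.SS.GM2.Desc.Field
import Fermat.Agent.SS.GM2.Desc.InvK
import Fermat.Agent.S24.FF.FiniteOver
import Fermat.Agent.S24.Sturm

/-!
# SS / GM2 / Desc : the normalised case (`W ≡ 1`, `w W ≡ 1`) of the descent
-/

set_option autoImplicit false

open AlgebraicCurve ModularCurve IntermediateField

namespace Fermat.Agent.SS.GM2

open Fermat.Agent.ES Fermat.Agent.Crux
open Fermat.Agent.S28 (V J evAt)
open Fermat.Agent.S24.FF (Ry)
open Fermat.Agent.Crux.GM (castS)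

theorem leadingCoeff_Jh (M : ℕ) [NeZero M] : (Jh M).leadingCoeff = 1 := by
  rw [HahnSeries.leadingCoeff_eq, GM.CoordJ.order_VJ, GM.CoordJ.coeff_VJ_self]

theorem leadingCoeff_Xh (M q : ℕ) [NeZero M] [NeZero q] : (Xh M q).leadingCoeff = 1 := by
  rw [Xh, HahnSeries.leadingCoeff_mul, leadingCoeff_Jh, leadingCoeff_Jh, one_mul]

theorem order_Xh_neg (M q : ℕ) [NeZero M] [NeZero q] : (Xh M q).order < 0 := by
  have h1 : Jh M ≠ 0 := fun h => by
    have := leadingCoeff_Jh M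
    rw [h, HahnSeries.leadingCoeff_zero] at this
    exact zero_ne_one this
  have h2 : Jh (M * q) ≠ 0 := fun h => by
    have := leadingCoeff_Jh (M * q)
    rw [h, HahnSeries.leadingCoeff_zero] at this
    exact zero_ne_one this
  rw [Xh, HahnSeries.order_mul h1 h2, GM.CoordJ.order_VJ, GM.CoordJ.order_VJ]
  have : 0 < M := Nat.pos_of_ne_zero (NeZero.ne M)
  have : 0 < M * q := Nat.pos_of_ne_zero (NeZero.ne _)
  omega

theorem castS_Xh_mem_bar (M q : ℕ) [NeZero M] [NeZero q] :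
    castS Qb (Xh M q) ∈ modularFunctionFieldBar (M * q) := by
  rw [Xh, castS, map_mul]
  refine mul_mem ?_ ?_
  · have := S24.jSer_mem (M * q) M (dvd_mul_right M q)
    rw [jSer_eq] at this
    rw [← castS, GM.CoordJ.castS_VJ]
    exact this
  · have := S24.jSer_mem (M * q) (M * q) dvd_rfl
    rw [jSer_eq] at this
    rw [← castS, GM.CoordJ.castS_VJ]
    exact this

/-- `X = j(t^M) j(t^{Mq})` as an element of `F_{Mq}`. -/
noncomputable def XF (M q : ℕ) [NeZero M] [NeZero q] : FF (M * q) :=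
  ⟨castS Qb (Xh M q), castS_Xh_mem_bar M q⟩

theorem transcendental_XF (M q : ℕ) [NeZero M] [NeZero q] : Transcendental Qb (XF M q) := by
  intro h
  exact GM.CoordHAux.transcendental_castS Qb (Xh M q) (leadingCoeff_Xh M q) (order_Xh_neg M q)
    (h.algHom (modularFunctionFieldBar (M * q)).val)

theorem transcendental_XF_inv (M q : ℕ) [NeZero M] [NeZero q] :
    Transcendental Qb (XF M q)⁻¹ := by
  intro h
  have := h.inv
  rw [inv_inv] at this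
  exact transcendental_XF M q this

/-- **The normalised case.** -/
theorem exists_root_of_redTo (M q m : ℕ) [NeZero M] [NeZero q] (hq : q.Prime) (hqm : ¬ q ∣ m)
    (hm : 0 < m) (h : CoreK2 M q m)
    (A : ValuationSubring Qb) (hA : A.LiesOverPrime q)
    (w : FF (M * q) →ₐ[Qb] FF (M * q)) (hw : IsAL M q w)
    (τ : A.decompositionSubgroup ℚ) (hτ : ∀ x : kA A, x ^ (q ^ 2) = x → τ • x = x)
    (e : ℕ) (he : ∀ ζ : Qb, ζ ^ m = 1 → (τ : GQ) ζ = ζ ^ e)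
    (W : FF (M * q)) (hW0 : W ≠ 0)
    (hdiv : ∀ P : Place Qb (FF (M * q)), (m : ℤ) ∣ P.ord W)
    (h1 : RedTo A (W : LaurentSeries Qb) 1)
    (h2 : RedTo A ((w W : FF (M * q)) : LaurentSeries Qb) 1) :
    ∃ h₀ : FF (M * q), h₀ ^ m = galF (M * q) (τ : GQ) W / W ^ e := by
  classical
  obtain ⟨y₁, y₂, hy₁, hy₂, hred, hne, hWy⟩ := exists_frac_of_redTo W h1
  obtain ⟨y₁', y₂', hy₁', hy₂', hred', hne', hWy'⟩ := exists_frac_of_redTo (w W) h2
  have hfd0 : FiniteDimensional Qb⟮S24.jN (M * q)⟯ (FF (M * q)) := S24.finiteDimensional_FN (M * q)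
  have hfd : FiniteDimensional Qb⟮XF M q⟯ (FF (M * q)) :=
    S24.FF.finiteDimensional_of_transcendental Qb (S24.jN (M * q)) (transcendental_XF M q)
  have hfd' : FiniteDimensional Qb⟮(XF M q)⁻¹⟯ (FF (M * q)) :=
    S24.FF.finiteDimensional_of_transcendental Qb (S24.jN (M * q)) (transcendental_XF_inv M q)
  obtain ⟨n₁, a₁, b₁, ha₁, hb₁, hab₁⟩ := exists_invK_gen (K := Qb) (XF M q) m hm W hW0 hdiv
  obtain ⟨n₂, a₂, b₂, ha₂, hb₂, hab₂⟩ := exists_invK_gen (K := Qb) (XF M q)⁻¹ m hm W hW0 hdiv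
  have : NeZero m := ⟨hm.ne'⟩
  have hq2 : 0 < q ^ 2 - 1 := by
    have := hq.two_le
    have : 2 ^ 2 ≤ q ^ 2 := Nat.pow_le_pow_left this 2
    omega
  have : NeZero (q ^ 2 - 1) := ⟨hq2.ne'⟩
  obtain ⟨ζ, hζ⟩ := HasEnoughRootsOfUnity.exists_primitiveRoot Qb m
  obtain ⟨ξ, hξ⟩ := HasEnoughRootsOfUnity.exists_primitiveRoot Qb (q ^ 2 - 1)
  obtain ⟨d, hd⟩ := IsAlgClosed.exists_pow_nat_eq (W : LaurentSeries Qb).leadingCoeff hm
  obtain ⟨K₀, hfin, hgal, hT, hS⟩ := exists_field (M * q) {ζ, ξ, d}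
    ({W, ⟨_, hy₁⟩, ⟨_, hy₂⟩, ⟨_, hy₁'⟩, ⟨_, hy₂'⟩} ∪ Finset.univ.image a₁ ∪ Finset.univ.image b₁
      ∪ Finset.univ.image a₂ ∪ Finset.univ.image b₂)
  have hnf : NumberField K₀ := ⟨⟩
  let τK : K₀ →+* K₀ :=
    { toFun := fun x => ⟨(τ : GQ) x, hgal _ _ x.2⟩
      map_one' := Subtype.ext (map_one _)
      map_mul' := fun x y => Subtype.ext (map_mul _ _ _)
      map_zero' := Subtype.ext (map_zero _)
      map_add' := fun x y => Subtype.ext (map_add _ _ _) }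
  have hτK : ∀ x, algebraMap K₀ Qb (τK x) = (τ : GQ) (algebraMap K₀ Qb x) := fun x => rfl
  have hζK : ζ ∈ K₀ := hT ζ (by simp)
  have hξK : ξ ∈ K₀ := hT ξ (by simp)
  have hdK : d ∈ K₀ := hT d (by simp)
  have hζ' : IsPrimitiveRoot (⟨ζ, hζK⟩ : K₀) m :=
    IsPrimitiveRoot.of_map_of_injective (f := algebraMap K₀ Qb) hζ (algebraMap K₀ Qb).injective
  have hξ' : IsPrimitiveRoot (⟨ξ, hξK⟩ : K₀) (q ^ 2 - 1) :=
    IsPrimitiveRoot.of_map_of_injective (f := algebraMap K₀ Qb) hξ (algebraMap K₀ Qb).injective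
  have heK : τK ⟨ζ, hζK⟩ = (⟨ζ, hζK⟩ : K₀) ^ e := Subtype.ext (he ζ hζ.pow_eq_one)
  exact core_step2 M q m hq hqm hm h A hA w hw τ hτ e W hW0 hdiv y₁ y₂ y₁' y₂' hred hne hWy
    hred' hne' hWy' (XF M q) rfl n₁ a₁ b₁ ha₁ hb₁ hab₁ n₂ a₂ b₂ ha₂ hb₂ hab₂ K₀ τK hτK
    ⟨ξ, hξK⟩ hξ' ⟨ζ, hζK⟩ hζ' heK ⟨d, hdK⟩ hd
    (hS W (by simp))
    (hS ⟨_, hy₁⟩ (by simp)) (hS ⟨_, hy₂⟩ (by simp)) (hS ⟨_, hy₁'⟩ (by simp))
    (hS ⟨_, hy₂'⟩ (by simp))
    (fun i => hS (a₁ i) (by simp)) (fun i => hS (b₁ i) (by simp))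
    (fun i => hS (a₂ i) (by simp)) (fun i => hS (b₂ i) (by simp))

end Fermat.Agent.SS.GM2
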