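import Fermat.Agent.SS.GM2.Desc.Step

/-!
# SS / GM2 / Desc : the choice of the number field `K₀`
-/

set_option autoImplicit false

open AlgebraicCurve ModularCurve

namespace Fermat.Agent.SS.GM2

open Fermat.Agent.ES Fermat.Agent.Crux

/-- A Galois-stable number field containing a given finite set of numbers and over which a given
finite set of functions is defined. -/
theorem exists_field (N : ℕ) [NeZero N] (T : Finset Qb) (S : Finset (FF N)) :
    ∃ K₀ : IntermediateField ℚ Qb, FiniteDimensional ℚ K₀ ∧ (∀ σ : GQ, ∀ x ∈ K₀, σ x ∈ K₀) ∧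
      (∀ c ∈ T, c ∈ K₀) ∧ ∀ f ∈ S, HasModel K₀ N (f : LaurentSeries Qb) := by
  classical
  choose p r _ hpr using S24.exists_phiF_div N
  set T' : Finset Qb := T ∪ S.biUnion (fun f => (p f).coeffs ∪ (r f).coeffs) with hT'
  set R : Finset Qb := T'.biUnion (fun c => ((minpoly ℚ c).aroots Qb).toFinset) with hR
  have hint : ∀ c : Qb, IsIntegral ℚ c := fun c =>
    ((AlgebraicClosure.isAlgebraic ℚ).isAlgebraic c).isIntegral
  have hsub : ∀ c ∈ T', c ∈ R := by
    intro c hc
    rw [hR, Finset.mem_biUnion]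
    refine ⟨c, hc, ?_⟩
    rw [Multiset.mem_toFinset, Polynomial.mem_aroots]
    exact ⟨minpoly.ne_zero (hint c), minpoly.aeval ℚ c⟩
  have hstab : ∀ σ : GQ, ∀ x ∈ R, σ x ∈ R := by
    intro σ x hx
    rw [hR, Finset.mem_biUnion] at hx ⊢
    obtain ⟨c, hc, hx⟩ := hx
    refine ⟨c, hc, ?_⟩
    rw [Multiset.mem_toFinset, Polynomial.mem_aroots] at hx ⊢
    refine ⟨hx.1, ?_⟩
    have := Polynomial.aeval_algHom_apply (σ : Qb →ₐ[ℚ] Qb) x (minpoly ℚ c)
    rw [hx.2, map_zero] at this
    exact this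
  refine ⟨IntermediateField.adjoin ℚ (R : Set Qb),
    IntermediateField.finiteDimensional_adjoin fun x _ => hint x, ?_, ?_, ?_⟩
  · intro σ x hx
    have h1 : (σ : Qb →ₐ[ℚ] Qb) x ∈ (IntermediateField.adjoin ℚ (R : Set Qb)).map
        (σ : Qb →ₐ[ℚ] Qb) := (IntermediateField.mem_map _).mpr ⟨x, hx, rfl⟩
    rw [IntermediateField.adjoin_map] at h1
    refine IntermediateField.adjoin.mono ℚ _ _ ?_ h1
    rintro _ ⟨y, hy, rfl⟩
    exact Finset.mem_coe.mpr (hstab σ y (Finset.mem_coe.mp hy))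
  · intro c hc
    exact IntermediateField.subset_adjoin _ _
      (Finset.mem_coe.mpr (hsub c (Finset.mem_union_left _ hc)))
  · intro f hf
    have hmem : ∀ c ∈ (p f).coeffs ∪ (r f).coeffs,
        c ∈ Set.range (algebraMap (IntermediateField.adjoin ℚ (R : Set Qb)) Qb) := by
      intro c hc
      refine ⟨⟨c, IntermediateField.subset_adjoin _ _ (Finset.mem_coe.mpr (hsub c ?_))⟩, rfl⟩
      exact Finset.mem_union_right _ (Finset.mem_biUnion.mpr ⟨f, hf, hc⟩)
    exact exists_model N _ f (p f) (r f) (hpr f)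
      (fun c hc => hmem c (Finset.mem_union_left _ hc))
      (fun c hc => hmem c (Finset.mem_union_right _ hc))

end Fermat.Agent.SS.GM2
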