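import Fermat.Agent.SS.GM2.Defs
import Fermat.Agent.SS.Formal.AL
import Fermat.Agent.Crux.Descent

/-!
# SS / GM2 / Desc : Step 5 of the descent, `w` is defined over `K₀`   (TASK `SS/GM2-Desc-WK`)

`ι = coeffMap (algebraMap K₀ ℚ̄) : F_{K₀}(N) → F_N` (`Crux.coeffMap_mem_bar`), injective (`Crux.coeffMap_injective`).
CLAIM: `w (ι f) ∈ range ι` for all `f ∈ F_{K₀}(N)`.  `modularFunctionFieldFullC K N` is (defeq, see the proof of
`Crux.coeffMap_mem_bar`) `Subfield.closure (range (algebraMap K K((t))) ∪ divisorExpansionsC K N)`: closure induction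
(or `Subfield.closure_le` into a comap, as in `Crux.coeffMap_mem_bar`).  Constants: `AlgHom.commutes`.  Generators
`j(t^d)`, `d ∣ M q`: if `q ∤ d` then `d ∣ M`, `j(t^d) = α (jF M d)`, `w` of it is `β (jF M d) = j(t^(dq))`; if `d = q d'` then
`j(t^d) = β (jF M d')`, `w` of it is `α (jF M d') = j(t^d')`  (this case distinction is in `SS.induction_gen`,
`SS/Formal/AL.lean`).
Then `wK := ι⁻¹ ∘ w ∘ ι` (choice + injectivity).  `alpha`: `f ∈ F_{K₀}(M)`: `ι f = α f'` with `f' ∈ F_M` the base change;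
`w (α f') = β f' = V_q (ι f) = ι (V_q f)` (`coeffMap_qExpand`).  `invol`: `IsAL.invol`.
-/

set_option autoImplicit false
set_option linter.unusedSectionVars false

open AlgebraicCurve ModularCurve

namespace Fermat.Agent.SS.GM2

open Fermat.Agent.ES

namespace WK

variable {M q : ℕ} [NeZero M] [NeZero q] {w : FF (M * q) →ₐ[Qb] FF (M * q)}
  {K₀ : Type*} [Field K₀] [Algebra K₀ Qb]

/-- `w (ι x) = ι (V_q x)` for `x ∈ F_{K₀}(M)`. -/
theorem w_alpha (hw : IsAL M q w) {x : LaurentSeries K₀}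
    (hx : x ∈ modularFunctionFieldFullC K₀ M)
    (h : coeffMap (algebraMap K₀ Qb) x ∈ modularFunctionFieldBar (M * q)) :
    ((w ⟨_, h⟩ : FF (M * q)) : LaurentSeries Qb)
      = coeffMap (algebraMap K₀ Qb) (qExpand K₀ q x) := by
  have e : (⟨_, h⟩ : FF (M * q))
      = heckeAlphaBar Qb M q ⟨_, Crux.coeffMap_mem_bar K₀ M hx⟩ := by
    apply Subtype.ext
    rw [coe_heckeAlphaBar]
  rw [e, hw.alpha, coe_heckeBetaBar, coeffMap_qExpand]

/-- `w (ι (V_q x)) = ι x` for `x ∈ F_{K₀}(M)`. -/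
theorem w_beta (hw : IsAL M q w) {x : LaurentSeries K₀}
    (hx : x ∈ modularFunctionFieldFullC K₀ M)
    (h : coeffMap (algebraMap K₀ Qb) (qExpand K₀ q x) ∈ modularFunctionFieldBar (M * q)) :
    ((w ⟨_, h⟩ : FF (M * q)) : LaurentSeries Qb) = coeffMap (algebraMap K₀ Qb) x := by
  have e : (⟨_, h⟩ : FF (M * q))
      = heckeBetaBar Qb M q ⟨_, Crux.coeffMap_mem_bar K₀ M hx⟩ := by
    apply Subtype.ext
    rw [coe_heckeBetaBar]
    exact coeffMap_qExpand _ _ _
  rw [e, hw.beta, coe_heckeAlphaBar]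

theorem V_mem {x : LaurentSeries K₀} (hx : x ∈ modularFunctionFieldFullC K₀ M) :
    qExpand K₀ q x ∈ modularFunctionFieldFullC K₀ (M * q) :=
  full_degeneracyC_map_le K₀ M q ⟨x, hx, rfl⟩

theorem mem_of_mem [NeZero (M * q)] {x : LaurentSeries K₀}
    (hx : x ∈ modularFunctionFieldFullC K₀ M) : x ∈ modularFunctionFieldFullC K₀ (M * q) :=
  full_degeneracyC_le K₀ (dvd_mul_right M q) hx

/-- the key claim. -/
theorem exists_preimage [NeZero (M * q)] (hq : q.Prime) (hw : IsAL M q w) {x : LaurentSeries K₀}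
    (hx : x ∈ modularFunctionFieldFullC K₀ (M * q)) :
    ∃ g ∈ modularFunctionFieldFullC K₀ (M * q),
      ∀ h : coeffMap (algebraMap K₀ Qb) x ∈ modularFunctionFieldBar (M * q),
        ((w ⟨_, h⟩ : FF (M * q)) : LaurentSeries Qb) = coeffMap (algebraMap K₀ Qb) g := by
  induction hx using IntermediateField.adjoin_induction with
  | mem x hx =>
    obtain ⟨d, hd0, hd, rfl⟩ := hx
    by_cases hqd : q ∣ d
    · obtain ⟨e, rfl⟩ := hqd
      have heM : e ∣ M := by
        rw [mul_comm M q] at hd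
        exact Nat.dvd_of_mul_dvd_mul_left hq.pos hd
      have : NeZero e := ⟨fun h0 => NeZero.ne M (Nat.eq_zero_of_zero_dvd (h0 ▸ heM))⟩
      have hmem : qExpand K₀ e (jqModC K₀) ∈ modularFunctionFieldFullC K₀ M :=
        jqModCd_mem_full K₀ M heM
      refine ⟨qExpand K₀ e (jqModC K₀), mem_of_mem hmem, fun h => ?_⟩
      have e1 : qExpand K₀ (q * e) (jqModC K₀) = qExpand K₀ q (qExpand K₀ e (jqModC K₀)) :=
        (qExpand_qExpand (N := e) q _).symm
      have h' : coeffMap (algebraMap K₀ Qb) (qExpand K₀ q (qExpand K₀ e (jqModC K₀)))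
          ∈ modularFunctionFieldBar (M * q) := e1 ▸ h
      have e2 : (⟨_, h⟩ : FF (M * q)) = ⟨_, h'⟩ :=
        Subtype.ext (congrArg (coeffMap (algebraMap K₀ Qb)) e1)
      rw [e2]
      exact w_beta hw hmem h'
    · have hdM : d ∣ M := by
        have hc : Nat.Coprime d q := ((Nat.Prime.coprime_iff_not_dvd hq).mpr hqd).symm
        exact hc.dvd_of_dvd_mul_right hd
      have hmem : qExpand K₀ d (jqModC K₀) ∈ modularFunctionFieldFullC K₀ M :=
        jqModCd_mem_full K₀ M hdM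
      exact ⟨_, V_mem hmem, fun h => w_alpha hw hmem h⟩
  | algebraMap c =>
    refine ⟨algebraMap K₀ _ c, IntermediateField.algebraMap_mem _ _, fun h => ?_⟩
    have e : (⟨_, h⟩ : FF (M * q)) = algebraMap Qb (FF (M * q)) (algebraMap K₀ Qb c) := by
      apply Subtype.ext
      exact Crux.coeffMap_algebraMap' K₀ c
    rw [e, AlgHom.commutes, Crux.coeffMap_algebraMap' K₀ c]
    rfl
  | add x y hx hy ihx ihy =>
    obtain ⟨g, hg, hgx⟩ := ihx
    obtain ⟨g', hg', hgy⟩ := ihy
    refine ⟨g + g', add_mem hg hg', fun h => ?_⟩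
    have hx' := Crux.coeffMap_mem_bar K₀ (M * q) hx
    have hy' := Crux.coeffMap_mem_bar K₀ (M * q) hy
    have e : (⟨_, h⟩ : FF (M * q)) = ⟨_, hx'⟩ + ⟨_, hy'⟩ := Subtype.ext (map_add _ _ _)
    rw [e, map_add, map_add, ← hgx hx', ← hgy hy']
    rfl
  | inv x hx ihx =>
    obtain ⟨g, hg, hgx⟩ := ihx
    refine ⟨g⁻¹, inv_mem hg, fun h => ?_⟩
    have hx' := Crux.coeffMap_mem_bar K₀ (M * q) hx
    have e : (⟨_, h⟩ : FF (M * q)) = (⟨_, hx'⟩ : FF (M * q))⁻¹ := Subtype.ext (map_inv₀ _ _)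
    rw [e, map_inv₀, map_inv₀, ← hgx hx']
    rfl
  | mul x y hx hy ihx ihy =>
    obtain ⟨g, hg, hgx⟩ := ihx
    obtain ⟨g', hg', hgy⟩ := ihy
    refine ⟨g * g', mul_mem hg hg', fun h => ?_⟩
    have hx' := Crux.coeffMap_mem_bar K₀ (M * q) hx
    have hy' := Crux.coeffMap_mem_bar K₀ (M * q) hy
    have e : (⟨_, h⟩ : FF (M * q)) = ⟨_, hx'⟩ * ⟨_, hy'⟩ := Subtype.ext (map_mul _ _ _)
    rw [e, map_mul, map_mul, ← hgx hx', ← hgy hy']
    rfl

end WK

open WK in
theorem exists_wK (M q : ℕ) [NeZero M] [NeZero q] (hq : q.Prime)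
    (w : FF (M * q) →ₐ[Qb] FF (M * q)) (hw : IsAL M q w)
    (K₀ : Type*) [Field K₀] [Algebra K₀ Qb] :
    ∃ wK : modularFunctionFieldFullC K₀ (M * q) →ₐ[K₀] modularFunctionFieldFullC K₀ (M * q),
      IsALK K₀ M q wK ∧
      ∀ (f : modularFunctionFieldFullC K₀ (M * q)) (f' : FF (M * q)),
        (f' : LaurentSeries Qb) = coeffMap (algebraMap K₀ Qb) (f : LaurentSeries K₀) →
        ((w f' : FF (M * q)) : LaurentSeries Qb)
          = coeffMap (algebraMap K₀ Qb)
              ((wK f : modularFunctionFieldFullC K₀ (M * q)) : LaurentSeries K₀) := by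
  classical
  have hN : NeZero (M * q) := ⟨Nat.mul_ne_zero (NeZero.ne M) (NeZero.ne q)⟩
  have hinj : Function.Injective (coeffMap (algebraMap K₀ Qb)) :=
    (coeffMap (algebraMap K₀ Qb)).injective
  -- the base change
  let ιF : modularFunctionFieldFullC K₀ (M * q) → FF (M * q) :=
    fun f => ⟨_, Crux.coeffMap_mem_bar K₀ (M * q) f.2⟩
  have hch : ∀ f : modularFunctionFieldFullC K₀ (M * q),
      ∃ g : modularFunctionFieldFullC K₀ (M * q),
        ((w (ιF f) : FF (M * q)) : LaurentSeries Qb)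
          = coeffMap (algebraMap K₀ Qb) (g : LaurentSeries K₀) := by
    intro f
    obtain ⟨g, hg, h⟩ := exists_preimage hq hw f.2
    exact ⟨⟨g, hg⟩, h _⟩
  choose W hW using hch
  have huniq : ∀ (f g : modularFunctionFieldFullC K₀ (M * q)),
      ((w (ιF f) : FF (M * q)) : LaurentSeries Qb)
        = coeffMap (algebraMap K₀ Qb) (g : LaurentSeries K₀) → W f = g := by
    intro f g h
    apply Subtype.ext
    apply hinj
    rw [← hW f, h]
  have hιadd : ∀ f g, ιF (f + g) = ιF f + ιF g := fun f g => Subtype.ext (map_add _ _ _)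
  have hιmul : ∀ f g, ιF (f * g) = ιF f * ιF g := fun f g => Subtype.ext (map_mul _ _ _)
  have hιone : ιF 1 = 1 := Subtype.ext (map_one _)
  have hιzero : ιF 0 = 0 := Subtype.ext (map_zero _)
  have hιalg : ∀ c : K₀, ιF (algebraMap K₀ _ c) = algebraMap Qb (FF (M * q)) (algebraMap K₀ Qb c) :=
    fun c => Subtype.ext (Crux.coeffMap_algebraMap' K₀ c)
  let wK : modularFunctionFieldFullC K₀ (M * q) →ₐ[K₀] modularFunctionFieldFullC K₀ (M * q) :=
    { toFun := W
      map_one' := huniq _ _ (by rw [hιone, map_one]; exact (map_one _).symm)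
      map_mul' := fun f g => huniq _ _ (by
        rw [hιmul, map_mul]
        show ((w (ιF f) : FF (M * q)) : LaurentSeries Qb) * ((w (ιF g) : FF (M * q)) : LaurentSeries Qb)
          = coeffMap (algebraMap K₀ Qb) ((W f : LaurentSeries K₀) * (W g : LaurentSeries K₀))
        rw [map_mul, hW, hW])
      map_zero' := huniq _ _ (by rw [hιzero, map_zero]; exact (map_zero _).symm)
      map_add' := fun f g => huniq _ _ (by
        rw [hιadd, map_add]
        show ((w (ιF f) : FF (M * q)) : LaurentSeries Qb) + ((w (ιF g) : FF (M * q)) : LaurentSeries Qb)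
          = coeffMap (algebraMap K₀ Qb) ((W f : LaurentSeries K₀) + (W g : LaurentSeries K₀))
        rw [map_add, hW, hW])
      commutes' := fun c => huniq _ _ (by
        rw [hιalg, AlgHom.commutes]
        exact (Crux.coeffMap_algebraMap' K₀ c).symm) }
  have hwK : ∀ f, wK f = W f := fun _ => rfl
  have hιW : ∀ f, ιF (W f) = w (ιF f) := fun f => Subtype.ext (hW f).symm
  refine ⟨wK, ⟨?_, ?_⟩, ?_⟩
  · intro f hf
    rw [hwK]
    apply hinj
    rw [← hW f]
    exact w_alpha hw hf _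
  · intro f
    rw [hwK, hwK]
    apply huniq
    rw [hιW, hw.invol hq]
  · intro f f' hf'
    have e : f' = ιF f := Subtype.ext hf'
    rw [e, hwK, hW]

end Fermat.Agent.SS.GM2
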