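import Fermat.Agent.Crux.Dvr

/-!
# SS / GM2 / Desc : the residue field of a nontrivial valuation ring of a number field is finite
(TASK `SS/GM2-Desc-FinRes`)

The proof of `Crux.isDiscreteValuationRing_of_numberField` (`Crux/Dvr.lean`, copy its first 60 lines) shows
`V = HeightOneSpectrum.valuationSubringAtPrime K v`, a localisation of `𝓞 K` at the nonzero prime `v.asIdeal`; so
`𝓞 K → V → k_V` is surjective (`x = a / s`, `s ∉ 𝔭`, `𝓞 K ⧸ 𝔭` is a field: `s s' ≡ 1`, so `x ≡ a s'`), with kernel
`𝔭 ≠ ⊥`, and `𝓞 K ⧸ 𝔭` is finite (`Ideal.finiteQuotientOfFreeOfNeBot` / `Ideal.fintypeQuotientOfFreeOfNeBot`).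
(Or use `IsLocalization.AtPrime` API for residue fields.)
(Alternative: `[k_V : 𝔽_q] ≤ [K : ℚ]` by lifting linearly independent families.)
-/

set_option autoImplicit false

namespace Fermat.Agent.SS.GM2

theorem finite_residueField {K : Type*} [Field K] [NumberField K]
    (V : ValuationSubring K) (hV : V ≠ ⊤) : Finite (IsLocalRing.ResidueField V) := by
  classical
  let φ : NumberField.RingOfIntegers K →+* V :=
    { toFun := fun a => ⟨(a : K), Fermat.Agent.Crux.mem_of_isIntegral_int V a.2⟩
      map_one' := rfl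
      map_mul' := fun _ _ => rfl
      map_zero' := rfl
      map_add' := fun _ _ => rfl }
  let 𝔭 : Ideal (NumberField.RingOfIntegers K) := (IsLocalRing.maximalIdeal V).comap φ
  have h𝔭 : 𝔭.IsPrime := Ideal.comap_isPrime φ _
  have hne : 𝔭 ≠ ⊥ := by
    obtain ⟨x, hx⟩ : ∃ x : K, x ∉ V := by
      by_contra hcon
      push Not at hcon
      exact hV (eq_top_iff.mpr fun x _ => hcon x)
    have hx0 : x ≠ 0 := by
      rintro rfl
      exact hx V.zero_mem
    have hxi : x⁻¹ ∈ V := (V.mem_or_inv_mem x).resolve_left hx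
    obtain ⟨a, b, hb, hab⟩ := IsFractionRing.div_surjective (A := NumberField.RingOfIntegers K) x⁻¹
    have hb0 : algebraMap (NumberField.RingOfIntegers K) K b ≠ 0 := by
      simpa using nonZeroDivisors.ne_zero hb
    have ha0 : a ≠ 0 := by
      rintro rfl
      rw [map_zero, zero_div] at hab
      exact inv_ne_zero hx0 hab.symm
    intro hbot
    apply ha0
    have : a ∈ 𝔭 := by
      show φ a ∈ IsLocalRing.maximalIdeal V
      rw [IsLocalRing.mem_maximalIdeal, mem_nonunits_iff]
      intro hu
      have h1 : φ a = ⟨x⁻¹, hxi⟩ * φ b := by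
        apply Subtype.ext
        show algebraMap (NumberField.RingOfIntegers K) K a
          = x⁻¹ * algebraMap (NumberField.RingOfIntegers K) K b
        rw [← hab, div_mul_cancel₀ _ hb0]
      rw [h1] at hu
      have h2 : IsUnit (⟨x⁻¹, hxi⟩ : V) := isUnit_of_mul_isUnit_left hu
      obtain ⟨w, hw⟩ := h2.exists_right_inv
      have hw' : x⁻¹ * (w : K) = 1 := congrArg Subtype.val hw
      apply hx
      have : x = w := by
        field_simp at hw'
        exact hw'.symm
      rw [this]
      exact w.2
    rwa [hbot, Ideal.mem_bot] at this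
  let v : IsDedekindDomain.HeightOneSpectrum (NumberField.RingOfIntegers K) := ⟨𝔭, h𝔭, hne⟩
  have hle : IsDedekindDomain.HeightOneSpectrum.valuationSubringAtPrime K v ≤ V := by
    rintro x ⟨a, s, hs, rfl⟩
    have hs' : IsUnit (φ s) := by
      by_contra hu
      exact hs ((IsLocalRing.mem_maximalIdeal _).mpr hu)
    obtain ⟨w, hw⟩ := hs'.exists_right_inv
    have hw' : algebraMap (NumberField.RingOfIntegers K) K s * (w : K) = 1 :=
      congrArg Subtype.val hw
    have : (algebraMap (NumberField.RingOfIntegers K) K s)⁻¹ = w :=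
      inv_eq_of_mul_eq_one_right hw'
    rw [this]
    exact V.mul_mem _ _ (φ a).2 w.2
  have heq := ValuationSubring.eq_of_le_of_ne_top _ hle hV
  -- the map `𝓞 K → k_V`
  let ψ : NumberField.RingOfIntegers K →+* IsLocalRing.ResidueField V :=
    (IsLocalRing.residue V).comp φ
  have hker : ∀ a, a ∈ 𝔭 → ψ a = 0 := fun a ha => (IsLocalRing.residue_eq_zero_iff _).mpr ha
  have hmax : 𝔭.IsMaximal := h𝔭.isMaximal hne
  have hsurj : Function.Surjective ψ := by
    intro y
    obtain ⟨x, rfl⟩ := IsLocalRing.residue_surjective y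
    have hx : (x : K) ∈ IsDedekindDomain.HeightOneSpectrum.valuationSubringAtPrime K v := by
      rw [heq]; exact x.2
    obtain ⟨a, s, hs, hxas⟩ := hx
    have hs0 : algebraMap (NumberField.RingOfIntegers K) K s ≠ 0 := by
      intro h0
      have : s = 0 := by simpa using h0
      exact hs (by rw [this]; exact 𝔭.zero_mem)
    obtain ⟨s', i, hi, hs'⟩ := hmax.exists_inv hs
    have h1 : x * φ s = φ a := by
      apply Subtype.ext
      show (x : K) * algebraMap (NumberField.RingOfIntegers K) K s
        = algebraMap (NumberField.RingOfIntegers K) K a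
      rw [hxas, inv_mul_cancel_right₀ hs0]
    have h2 : IsLocalRing.residue V x * ψ s = ψ a := by
      show IsLocalRing.residue V x * IsLocalRing.residue V (φ s) = IsLocalRing.residue V (φ a)
      rw [← map_mul, h1]
    have h3 : ψ s' * ψ s = 1 := by
      have := congrArg ψ hs'
      rwa [map_add, map_mul, hker i hi, add_zero, map_one] at this
    refine ⟨a * s', ?_⟩
    rw [map_mul, ← h2, mul_assoc, mul_comm (ψ s), h3, mul_one]
  have hfin : Finite (NumberField.RingOfIntegers K ⧸ 𝔭) := Ideal.finiteQuotientOfFreeOfNeBot 𝔭 hne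
  exact Finite.of_surjective (Ideal.Quotient.lift 𝔭 ψ hker)
    (Ideal.Quotient.lift_surjective_of_surjective _ _ hsurj)

end Fermat.Agent.SS.GM2
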