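import Fermat.Agent.SS.GM2.Defs
import Fermat.Agent.S24.FF.Setup
import Fermat.Agent.Crux.DescentAux
import Fermat.Agent.SS.GM2.Transfer

/-!
# SS / GM2 / Desc : Step 3 of the descent, integrality descends from `ℚ̄[y]` to `K₀[y]`
(TASK `SS/GM2-Desc-IntDesc`)

`x ∈ F_N` integral over `ℚ̄[y] = Ry Qb y`; `y = ι t`, `x = ι z` with `t z ∈ K₀((q))`, `ι = coeffMap (algebraMap K₀ ℚ̄)`.
Then `z` is integral over `K₀[t]`.
PROOF.  `ℚ̄[X]` is integral over `K₀[X]` (`Polynomial.induction_on`: constants are algebraic over `K₀`, since algebraic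
over `ℚ`; `X` is in the image; `RingHom.IsIntegralElem.add/mul`), so by transitivity (`isIntegral_trans` /
`RingHom.IsIntegral.trans`; lift the coefficients in `Ry Qb y` to `ℚ̄[X]` by `S24.FF.polyToRy_surjective`) there is a
monic `P ∈ K₀[X][X]` with `eval₂ (ι ∘ evAt t) (ι z) P = 0`; by `Polynomial.hom_eval₂` this is `ι (eval₂ (evAt t) z P)`, and
`ι` is injective (`Crux.coeffMap_injective`).
-/

set_option autoImplicit false

open AlgebraicCurve ModularCurve

namespace Fermat.Agent.SS.GM2

open Fermat.Agent.ES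
open Fermat.Agent.S28 (evAt)
open Fermat.Agent.S24.FF (Ry)

theorem isIntegralElem_of_bar (N : ℕ) (K₀ : Type*) [Field K₀] [Algebra K₀ Qb]
    (y x : FF N) (t z : LaurentSeries K₀)
    (ht : coeffMap (algebraMap K₀ Qb) t = (y : LaurentSeries Qb))
    (hz : coeffMap (algebraMap K₀ Qb) z = (x : LaurentSeries Qb))
    (h : IsIntegral (Ry Qb y) x) : (evAt t).IsIntegralElem z := by
  have hinj : Function.Injective (coeffMap (algebraMap K₀ Qb)) :=
    Fermat.Agent.Crux.coeffMap_injective _ (algebraMap K₀ Qb).injective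
  have key : ((coeffMap (algebraMap K₀ Qb)).comp (evAt t)).IsIntegralElem
      (coeffMap (algebraMap K₀ Qb) z) := by
    apply isIntegralElem_of_forall_valuationSubring
    intro W hW
    -- constants of `K₀`
    have hc0 : ∀ c : K₀, ((algebraMap Qb (LaurentSeries Qb)).comp (algebraMap K₀ Qb)) c ∈ W := by
      intro c
      have h1 := hW (Polynomial.C c)
      have h2 : ((coeffMap (algebraMap K₀ Qb)).comp (evAt t)) (Polynomial.C c)
          = ((algebraMap Qb (LaurentSeries Qb)).comp (algebraMap K₀ Qb)) c := by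
        rw [RingHom.comp_apply, RingHom.comp_apply, algebraMap_laurentSeries_eq_single]
        simp [evAt]
      rwa [h2] at h1
    have hy : (y : LaurentSeries Qb) ∈ W := by
      have h1 := hW Polynomial.X
      have h2 : ((coeffMap (algebraMap K₀ Qb)).comp (evAt t)) Polynomial.X
          = (y : LaurentSeries Qb) := by
        rw [RingHom.comp_apply, ← ht]
        simp [evAt]
      rwa [h2] at h1
    -- constants of `ℚ̄`
    have hc : ∀ c : Qb, algebraMap Qb (LaurentSeries Qb) c ∈ W := by
      intro c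
      have hch : CharZero K₀ :=
        ((algebraMap K₀ Qb).charZero_iff (algebraMap K₀ Qb).injective).2 inferInstance
      have halg : IsAlgebraic ℚ c := (AlgebraicClosure.isAlgebraic ℚ).isAlgebraic c
      have hint : IsIntegral K₀ c := (halg.tower_top K₀).isIntegral
      obtain ⟨p, hp, hroot⟩ := hint
      refine Fermat.Agent.S28.IntVal.mem_of_isIntegralElem W _ hc0 ⟨p, hp, ?_⟩
      rw [← Polynomial.hom_eval₂, hroot, map_zero]
    have hRy : ∀ u : Ry Qb y,
        ((algebraMap (FF N) (LaurentSeries Qb)).comp (algebraMap (Ry Qb y) (FF N))) u ∈ W := by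
      intro u
      obtain ⟨q, rfl⟩ := Fermat.Agent.S24.FF.polyToRy_surjective Qb y u
      have h1 : ((algebraMap (FF N) (LaurentSeries Qb)).comp (algebraMap (Ry Qb y) (FF N)))
          (Fermat.Agent.S24.FF.polyToRy Qb y q) = Polynomial.aeval (y : LaurentSeries Qb) q := by
        change algebraMap (FF N) (LaurentSeries Qb) (Polynomial.aeval y q) = _
        rw [← Polynomial.aeval_algebraMap_apply]
        rfl
      rw [h1]
      exact aeval_mem_valuationSubring W hc hy q
    rw [hz]
    obtain ⟨p, hp, hroot⟩ := h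
    refine Fermat.Agent.S28.IntVal.mem_of_isIntegralElem W _ hRy ⟨p, hp, ?_⟩
    have h2 := congrArg (algebraMap (FF N) (LaurentSeries Qb)) hroot
    rw [Polynomial.hom_eval₂, map_zero] at h2
    exact h2
  obtain ⟨P, hP, hroot⟩ := key
  refine ⟨P, hP, hinj ?_⟩
  rw [Polynomial.hom_eval₂, hroot, map_zero]

end Fermat.Agent.SS.GM2
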