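import Fermat.Agent.SS.GM2.Defs
import Fermat.Agent.Crux.Descent
import Fermat.Agent.Crux.Dvr
import Fermat.Agent.SS.GM2.Desc.FinRes

/-!
# SS / GM2 / Desc : Step 4 of the descent, `τ̄ = Frob^(2ν)` on `k₀`   (TASK `SS/GM2-Desc-Tau`)

`K₀` a number field inside `ℚ̄`, `A₀ = A ∩ K₀` (`Crux.A0 K₀ A`), `k₀` its residue field.

* `finite_residueField` (file `Desc/FinRes.lean`): `k₀` is finite (`Crux.A0_ne_top`).
* `exists_tauA` : `τ A = A` (`τ ∈ A.decompositionSubgroup ℚ`; see `ES.galA`, `ES.coe_galA` in `ES/B/Red.lean`), so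
  `τK A₀ ⊆ A₀`: `τA`.  It induces `τ̄ : k₀ → k₀` (kernel of `residue`: `Crux.residue_comap_eq_zero_iff`), a
  `ZMod q`-algebra endomorphism of the finite field `k₀`, so `τ̄ = Frob^j`
  (`FiniteField.bijective_frobeniusAlgHom_pow (K := ZMod q)`).
  `k₀ → k_A` is injective and compatible with `τ̄` and the action `τ • ·` on `k_A`; `ξ̄ ∈ k₀` satisfies
  `ξ̄^(q²) = ξ̄`, so `τ̄ ξ̄ = ξ̄`, i.e. `ξ̄^(q^j) = ξ̄`, and `ξ̄` has order `q² - 1` (`q ∤ q² - 1`:
  reduction is injective on roots of unity of order prime to `q`; see `ES.mem_of_pow_eq_one`,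
  `Crux/PrimeToM.lean`, `IsPrimitiveRoot.map_of_injective`-like arguments through `X^n - 1` separable), so
  `q² - 1 ∣ q^j - 1`, so `2 ∣ j`.
  Replace `j` by `j + 2 f s` (`f = [k₀ : 𝔽_q]`, `x^(q^f) = x` on `k₀`) to get `j = 2ν`, `ν > 0`, `q^(2ν) ≥ e`.
  `ζ̄^(q^(2ν)) = τ̄ ζ̄ = ζ̄^e`, `ζ̄` of order `m`: `m ∣ q^(2ν) - e`.
-/

set_option autoImplicit false
set_option linter.style.haveILetI false

open AlgebraicCurve ModularCurve

namespace Fermat.Agent.SS.GM2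

open Fermat.Agent.ES Fermat.Agent.Crux

namespace Tau

/-- reduction is injective on roots of unity of order prime to the residue characteristic. -/
theorem isPrimitiveRoot_map {R k : Type*} [CommRing R] [IsDomain R] [Field k] (f : R →+* k)
    {n : ℕ} (hn : (n : k) ≠ 0) {z : R} (hz : IsPrimitiveRoot z n) : IsPrimitiveRoot (f z) n := by
  classical
  have hn0 : 0 < n := Nat.pos_of_ne_zero (by rintro rfl; simp at hn)
  have h1 := Polynomial.X_pow_sub_one_eq_prod hn0 hz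
  have h2 := congrArg (Polynomial.map f) h1
  rw [Polynomial.map_sub, Polynomial.map_pow, Polynomial.map_X, Polynomial.map_one,
    Polynomial.map_prod] at h2
  simp only [Polynomial.map_sub, Polynomial.map_X, Polynomial.map_C] at h2
  have hsep : (Polynomial.X ^ n - 1 : Polynomial k).Separable := by
    have := Polynomial.separable_X_pow_sub_C (1 : k) hn one_ne_zero
    simpa using this
  rw [h2, Polynomial.separable_prod_X_sub_C_iff'] at hsep
  refine IsPrimitiveRoot.mk_of_lt _ hn0 (by rw [← map_pow, hz.pow_eq_one, map_one]) ?_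
  intro l hl0 hln hl
  have hmem : ∀ i, z ^ i ∈ Polynomial.nthRootsFinset n (1 : R) := fun i => by
    rw [Polynomial.mem_nthRootsFinset hn0, ← pow_mul, mul_comm, pow_mul, hz.pow_eq_one, one_pow]
  have := hsep (z ^ l) (hmem l) (z ^ 0) (hmem 0) (by rw [map_pow, hl, pow_zero, map_one])
  rw [pow_zero] at this
  exact hz.pow_ne_one_of_pos_of_lt hl0.ne' hln this

theorem even_of_dvd {q j : ℕ} (hq : 2 ≤ q) (h : q ^ 2 - 1 ∣ q ^ j - 1) : 2 ∣ j := by
  by_contra hj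
  obtain ⟨i, rfl⟩ : ∃ i, j = 2 * i + 1 := ⟨j / 2, by omega⟩
  have hq2 : 1 ≤ q ^ 2 := Nat.one_le_pow _ _ (by omega)
  have hqj : 1 ≤ q ^ (2 * i + 1) := Nat.one_le_pow _ _ (by omega)
  have h' : ((q : ℤ) ^ 2 - 1) ∣ (q : ℤ) ^ (2 * i + 1) - 1 := by
    have := Int.natCast_dvd_natCast.mpr h
    rwa [Nat.cast_sub hq2, Nat.cast_sub hqj, Nat.cast_pow, Nat.cast_pow, Nat.cast_one] at this
  have h2 : ((q : ℤ) ^ 2 - 1) ∣ ((q : ℤ) ^ 2) ^ i - 1 := by
    simpa using sub_dvd_pow_sub_pow ((q : ℤ) ^ 2) 1 i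
  have h3 : ((q : ℤ) ^ 2 - 1) ∣ (q : ℤ) - 1 := by
    have e : (q : ℤ) - 1 = ((q : ℤ) ^ (2 * i + 1) - 1) - q * (((q : ℤ) ^ 2) ^ i - 1) := by ring
    rw [e]; exact dvd_sub h' (Dvd.dvd.mul_left h2 _)
  have hq' : (2 : ℤ) ≤ q := by exact_mod_cast hq
  have h4 := Int.le_of_dvd (by omega) h3
  nlinarith

/-- `x ^ (q ^ (a + f * s)) = x ^ (q ^ a)` when `x ^ (q ^ f) = x` for all `x`. -/
theorem pow_pow_add_mul {k : Type*} [Monoid k] {q f : ℕ} (h : ∀ x : k, x ^ (q ^ f) = x) (a s : ℕ)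
    (x : k) : x ^ (q ^ (a + f * s)) = x ^ (q ^ a) := by
  induction s with
  | zero => simp
  | succ s ih =>
    rw [Nat.mul_succ, ← add_assoc, pow_add, mul_comm, pow_mul, h, ih]

end Tau

theorem exists_tauA (q m : ℕ) (hq : q.Prime) (hqm : ¬ q ∣ m)
    (A : ValuationSubring Qb) (hA : A.LiesOverPrime q) (τ : A.decompositionSubgroup ℚ)
    (hτ : ∀ x : kA A, x ^ (q ^ 2) = x → τ • x = x)
    (K₀ : Type) [Field K₀] [NumberField K₀] [Algebra K₀ Qb]
    (τK : K₀ →+* K₀) (hτK : ∀ x, algebraMap K₀ Qb (τK x) = (τ : GQ) (algebraMap K₀ Qb x))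
    (ξ : K₀) (hξ : IsPrimitiveRoot ξ (q ^ 2 - 1))
    (ζ : K₀) (hζ : IsPrimitiveRoot ζ m) (e : ℕ) (he : τK ζ = ζ ^ e) :
    ∃ τA : A0 K₀ A →+* A0 K₀ A,
      (∀ a, τK (algebraMap (A0 K₀ A) K₀ a) = algebraMap (A0 K₀ A) K₀ (τA a)) ∧
      ∃ ν g : ℕ, 0 < ν ∧
        (∀ a, IsLocalRing.residue (A0 K₀ A) (τA a)
          = IsLocalRing.residue (A0 K₀ A) a ^ (q ^ (2 * ν))) ∧
        q ^ (2 * ν) = e + m * g := by
  classical
  have hVtop : A0 K₀ A ≠ ⊤ := A0_ne_top K₀ A hq hA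
  haveI : Finite (IsLocalRing.ResidueField (A0 K₀ A)) := finite_residueField _ hVtop
  haveI : Fact q.Prime := ⟨hq⟩
  haveI hchar : CharP (IsLocalRing.ResidueField (A0 K₀ A)) q := by
    have h0 : ((q : ℕ) : IsLocalRing.ResidueField (A0 K₀ A)) = 0 := by
      rw [← map_natCast (IsLocalRing.residue (A0 K₀ A))]; exact residue_A0_natCast K₀ A hA
    exact (CharP.charP_iff_prime_eq_zero hq).mpr h0
  have hq2 : 2 ≤ q := hq.two_le
  have hm0 : m ≠ 0 := by rintro rfl; exact hqm (dvd_zero q)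
  let inc : A0 K₀ A → A := fun a => ⟨algebraMap K₀ Qb a, a.2⟩
  have hmem : ∀ a : A0 K₀ A, (τK.comp (A0 K₀ A).subtype) a ∈ A0 K₀ A := by
    intro a
    show algebraMap K₀ Qb (τK a) ∈ A
    rw [hτK]
    exact (galA τ (inc a)).2
  let τA : A0 K₀ A →+* A0 K₀ A := (τK.comp (A0 K₀ A).subtype).codRestrict (A0 K₀ A) hmem
  have hcoe : ∀ a : A0 K₀ A, algebraMap K₀ Qb ((τA a : A0 K₀ A) : K₀) = (galA τ (inc a) : A) :=
    fun a => hτK a
  have hsm : ∀ b : A, IsLocalRing.residue A (galA τ b) = τ • IsLocalRing.residue A b :=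
    fun b => IsLocalRing.ResidueField.residue_smul _ τ b
  have hzero : ∀ a : A0 K₀ A, IsLocalRing.residue (A0 K₀ A) a = 0 →
      IsLocalRing.residue (A0 K₀ A) (τA a) = 0 := by
    intro a ha
    have h1 := (residue_comap_eq_zero_iff (algebraMap K₀ Qb) A a (inc a) rfl).mp ha
    refine (residue_comap_eq_zero_iff (algebraMap K₀ Qb) A (τA a) (galA τ (inc a)) (hcoe a)).mpr ?_
    rw [hsm, h1, smul_zero]
  haveI : IsLocalHom τA := ⟨fun a ha => by
    by_contra hu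
    have h0 : IsLocalRing.residue (A0 K₀ A) a = 0 :=
      (IsLocalRing.residue_eq_zero_iff a).mpr ((IsLocalRing.mem_maximalIdeal a).mpr hu)
    have h1 := hzero a h0
    rw [IsLocalRing.residue_eq_zero_iff, IsLocalRing.mem_maximalIdeal] at h1
    exact h1 ha⟩
  let τb : IsLocalRing.ResidueField (A0 K₀ A) →+* IsLocalRing.ResidueField (A0 K₀ A) :=
    IsLocalRing.ResidueField.map τA
  have hτb : ∀ a, τb (IsLocalRing.residue (A0 K₀ A) a) = IsLocalRing.residue (A0 K₀ A) (τA a) :=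
    fun a => IsLocalRing.ResidueField.map_residue τA a
  letI := ZMod.algebra (IsLocalRing.ResidueField (A0 K₀ A)) q
  let τalg : IsLocalRing.ResidueField (A0 K₀ A) →ₐ[ZMod q] IsLocalRing.ResidueField (A0 K₀ A) :=
    { τb with
      commutes' := fun c => by
        have : τb.comp (algebraMap (ZMod q) (IsLocalRing.ResidueField (A0 K₀ A)))
            = algebraMap (ZMod q) (IsLocalRing.ResidueField (A0 K₀ A)) := Subsingleton.elim _ _
        exact RingHom.congr_fun this c }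
  obtain ⟨n, hn⟩ := (FiniteField.bijective_frobeniusAlgHom_pow (ZMod q)
    (IsLocalRing.ResidueField (A0 K₀ A))).2 τalg
  have hfrob : ∀ x : IsLocalRing.ResidueField (A0 K₀ A), τb x = x ^ (q ^ (n : ℕ)) := by
    intro x
    have := DFunLike.congr_fun hn x
    simp only [AlgHom.coe_pow, FiniteField.coe_frobeniusAlgHom, pow_iterate, ZMod.card] at this
    exact this.symm
  -- roots of unity lie in `A₀`
  have hroot : ∀ (z : K₀) (d : ℕ), d ≠ 0 → z ^ d = 1 → z ∈ A0 K₀ A := by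
    intro z d hd hz
    show algebraMap K₀ Qb z ∈ A
    exact mem_of_pow_eq_one A hd (by rw [← map_pow, hz, map_one])
  have hprim : ∀ (z : K₀) (d : ℕ) (hz : IsPrimitiveRoot z d) (hzV : z ∈ A0 K₀ A), ¬ q ∣ d →
      IsPrimitiveRoot (IsLocalRing.residue (A0 K₀ A) ⟨z, hzV⟩) d := by
    intro z d hz hzV hd
    apply Tau.isPrimitiveRoot_map
    · rw [Ne, CharP.cast_eq_zero_iff _ q]; exact hd
    · exact IsPrimitiveRoot.of_map_of_injective (f := (A0 K₀ A).subtype) hz Subtype.val_injective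
  -- `2 ∣ n`
  have hqq : 1 ≤ q ^ 2 := Nat.one_le_pow _ _ hq.pos
  have hN0 : q ^ 2 - 1 ≠ 0 := by
    have : 4 ≤ q ^ 2 := by nlinarith
    omega
  have hqN : ¬ q ∣ q ^ 2 - 1 := by
    intro h
    have h1 : q ∣ q ^ 2 := dvd_pow_self q two_ne_zero
    have h2 := Nat.dvd_sub h1 h
    rw [Nat.sub_sub_self hqq] at h2
    exact hq.one_lt.ne' (Nat.dvd_one.mp h2)
  have hξV := hroot ξ _ hN0 hξ.pow_eq_one
  have hξb := hprim ξ _ hξ hξV hqN
  have hξq : ξ ^ (q ^ 2) = ξ := by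
    conv_lhs => rw [← Nat.sub_add_cancel hqq, pow_succ, hξ.pow_eq_one, one_mul]
  have hfix : τb (IsLocalRing.residue (A0 K₀ A) ⟨ξ, hξV⟩)
      = IsLocalRing.residue (A0 K₀ A) ⟨ξ, hξV⟩ := by
    rw [hτb, ← sub_eq_zero, ← map_sub]
    refine (residue_comap_eq_zero_iff (algebraMap K₀ Qb) A _
      (galA τ (inc ⟨ξ, hξV⟩) - inc ⟨ξ, hξV⟩) ?_).mpr ?_
    · show algebraMap K₀ Qb (τK ξ - ξ) = (τ : GQ) (algebraMap K₀ Qb ξ) - algebraMap K₀ Qb ξ
      rw [map_sub, hτK]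
    · rw [map_sub, hsm, sub_eq_zero]
      apply hτ
      rw [← map_pow]
      congr 1
      apply Subtype.ext
      show (algebraMap K₀ Qb ξ) ^ (q ^ 2) = algebraMap K₀ Qb ξ
      rw [← map_pow, hξq]
  have hqn : 1 ≤ q ^ (n : ℕ) := Nat.one_le_pow _ _ hq.pos
  have h2n : 2 ∣ (n : ℕ) := by
    apply Tau.even_of_dvd hq2
    apply hξb.dvd_of_pow_eq_one
    have h1 := hfrob (IsLocalRing.residue (A0 K₀ A) ⟨ξ, hξV⟩)
    rw [hfix, ← Nat.sub_add_cancel hqn, pow_succ] at h1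
    have h0 := hξb.ne_zero hN0
    exact (mul_right_cancel₀ h0 (by rw [one_mul]; exact h1)).symm
  obtain ⟨i, hi⟩ := h2n
  -- the cardinality of `k₀`
  letI := Fintype.ofFinite (IsLocalRing.ResidueField (A0 K₀ A))
  obtain ⟨f, -, hf⟩ := FiniteField.card (IsLocalRing.ResidueField (A0 K₀ A)) q
  have hpf : ∀ x : IsLocalRing.ResidueField (A0 K₀ A), x ^ (q ^ (f : ℕ)) = x := by
    intro x
    rw [← hf]; exact FiniteField.pow_card x
  have hν : 2 * (i + f * (e + 1)) = (n : ℕ) + f * (2 * (e + 1)) := by rw [hi]; ring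
  have hfrob' : ∀ x : IsLocalRing.ResidueField (A0 K₀ A),
      τb x = x ^ (q ^ (2 * (i + f * (e + 1)))) := by
    intro x
    rw [hν, Tau.pow_pow_add_mul hpf, hfrob]
  have hfpos : 0 < (f : ℕ) := f.pos
  have hle : e ≤ q ^ (2 * (i + f * (e + 1))) := by
    have h1 : e < q ^ e := Nat.lt_pow_self hq.one_lt
    have h2 : e ≤ 2 * (i + f * (e + 1)) := by nlinarith
    exact h1.le.trans (Nat.pow_le_pow_right hq.pos h2)
  obtain ⟨d, hd⟩ := Nat.exists_eq_add_of_le hle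
  have hζV := hroot ζ m hm0 hζ.pow_eq_one
  have hζb := hprim ζ m hζ hζV hqm
  have hmd : m ∣ d := by
    apply hζb.dvd_of_pow_eq_one
    have h1 := hfrob' (IsLocalRing.residue (A0 K₀ A) ⟨ζ, hζV⟩)
    have h2 : τA ⟨ζ, hζV⟩ = ⟨ζ, hζV⟩ ^ e := Subtype.ext he
    rw [hτb, h2, map_pow, hd, pow_add] at h1
    have h0 := pow_ne_zero e (hζb.ne_zero hm0)
    exact (mul_left_cancel₀ h0 (by rw [mul_one]; exact h1)).symm
  obtain ⟨g, rfl⟩ := hmd
  refine ⟨τA, fun a => rfl, i + f * (e + 1), g, by positivity, fun a => ?_, hd⟩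
  rw [← hτb, hfrob']

end Fermat.Agent.SS.GM2
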