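import Fermat.Agent.SS.GM2.Defs
import Fermat.Agent.SS.Formal.AL
import Fermat.Agent.SS.Formal.Red
import Fermat.Agent.Crux.Descent
import Fermat.Agent.Crux.Dvr
import Fermat.Agent.Crux.GM.Place
import Fermat.Agent.Crux.GM.Root
import Fermat.Agent.SS.GM2.Desc.FinRes
import Fermat.Agent.SS.GM2.Desc.Tau
import Fermat.Agent.SS.GM2.Desc.WK
import Fermat.Agent.SS.GM2.Desc.IntDesc

/-!
# SS / GM2 / Desc : the application of `CoreK2` over a generic number field `K₀ ⊆ ℚ̄`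
-/

set_option autoImplicit false

open AlgebraicCurve ModularCurve

namespace Fermat.Agent.SS.GM2

open Fermat.Agent.ES Fermat.Agent.Crux
open Fermat.Agent.S28 (evAt)
open Fermat.Agent.S24.FF (Ry)
open Fermat.Agent.Crux.GM (castS)

/-- `W ≡ 1` for the Gauss valuation: numerator and denominator may be taken in `F_N ∩ A((t))`. -/
theorem exists_frac_of_redTo {N : ℕ} [NeZero N] {A : ValuationSubring Qb} (W : FF N)
    (h : RedTo A (W : LaurentSeries Qb) 1) :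
    ∃ y₁ y₂ : LaurentSeries A, coeffMap A.subtype y₁ ∈ modularFunctionFieldBar N ∧
      coeffMap A.subtype y₂ ∈ modularFunctionFieldBar N ∧
      coeffMap (resA A) y₁ = coeffMap (resA A) y₂ ∧ coeffMap (resA A) y₂ ≠ 0 ∧
      (W : LaurentSeries Qb) * coeffMap A.subtype y₂ = coeffMap A.subtype y₁ := by
  have h' : RedTo A (cst 1 * (W : LaurentSeries Qb)) 1 := by
    rw [cst, map_one, one_mul]; exact h
  obtain ⟨c, y₁, y₂, hc, hy₁, hy₂, hred, hne, e⟩ := redConst_of_redTo W 1 one_ne_zero h'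
  -- `c W ≡ 1`
  have h1 : RedTo A (cst c * (W : LaurentSeries Qb)) 1 :=
    ⟨y₁, y₂, hne, e, by rw [one_mul]; exact hred⟩
  have hW0 : (W : LaurentSeries Qb) ≠ 0 := by
    intro h0
    obtain ⟨z₁, z₂, k0, k1, k2⟩ := h
    rw [h0, zero_mul] at k1
    have : z₁ = 0 := ES.coeffMap_subtype_injective A (by rw [← k1, map_zero])
    rw [this, map_zero, one_mul] at k2
    exact k0 k2.symm
  have h2 := h1.mul (h.inv one_ne_zero)
  rw [mul_assoc, mul_inv_cancel₀ hW0, mul_one, inv_one, mul_one] at h2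
  obtain ⟨a, ha, hra⟩ := h2.const
  refine ⟨y₁, HahnSeries.single 0 a * y₂, hy₁, ?_, ?_, ?_, ?_⟩
  · rw [map_mul, coeffMap_single]
    refine mul_mem ?_ hy₂
    have : HahnSeries.single (0 : ℤ) (A.subtype a) = algebraMap Qb (LaurentSeries Qb) (a : Qb) := by
      rw [algebraMap_laurentSeries_eq_single]; rfl
    rw [this]
    exact IntermediateField.algebraMap_mem _ _
  · rw [map_mul, coeffMap_single]
    have : HahnSeries.single (0 : ℤ) (resA A a) = cstk A (resA A a) := by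
      rw [cstk, algebraMap_laurentSeries_eq_single]
    rw [this, ← hra, one_mul, hred]
  · rw [map_mul, coeffMap_single]
    have : HahnSeries.single (0 : ℤ) (resA A a) = cstk A (resA A a) := by
      rw [cstk, algebraMap_laurentSeries_eq_single]
    rw [this, ← hra, one_mul]
    exact hne
  · rw [map_mul, coeffMap_single]
    have : HahnSeries.single (0 : ℤ) (A.subtype a) = cst c := by
      rw [cst, algebraMap_laurentSeries_eq_single, ← ha]; rfl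
    rw [this, ← e]
    ring

section Generic

variable (K₀ : Type*) [Field K₀] [Algebra K₀ Qb]

/-- `RedK` over `A₀ = A ∩ K₀` from models of numerator and denominator. -/
theorem redK_of_models (A : ValuationSubring Qb)
    (W₀ u₁ u₂ : LaurentSeries K₀) (y₁ y₂ : LaurentSeries A)
    (hu₁ : coeffMap (algebraMap K₀ Qb) u₁ = coeffMap A.subtype y₁)
    (hu₂ : coeffMap (algebraMap K₀ Qb) u₂ = coeffMap A.subtype y₂)
    (hred : coeffMap (resA A) y₁ = coeffMap (resA A) y₂) (hne : coeffMap (resA A) y₂ ≠ 0)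
    (hW : coeffMap (algebraMap K₀ Qb) W₀ * coeffMap A.subtype y₂ = coeffMap A.subtype y₁) :
    RedK (IsLocalRing.residue (A0 K₀ A)) W₀ 1 := by
  obtain ⟨z₁, hz₁, hz₁'⟩ := exists_A0_series K₀ A u₁ y₁ hu₁
  obtain ⟨z₂, hz₂, hz₂'⟩ := exists_A0_series K₀ A u₂ y₂ hu₂
  refine ⟨z₁, z₂, coeffMap_residue_A0_ne_zero K₀ A z₂ y₂ hz₂' hne, ?_, ?_⟩
  · rw [hz₁, hz₂]
    apply coeffMap_injective (algebraMap K₀ Qb) (algebraMap K₀ Qb).injective
    rw [map_mul, hu₁, hu₂, hW]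
  · rw [one_mul]
    exact coeffMap_residue_A0_eq K₀ A z₁ z₂ y₁ y₂ hz₁' hz₂' hred

/-- `InvKq` over `K₀` from the data over `ℚ̄` and models. -/
theorem invKq_of_models (N m : ℕ) [NeZero N] (y W : FF N) (t W₀ : LaurentSeries K₀)
    (ht : coeffMap (algebraMap K₀ Qb) t = (y : LaurentSeries Qb))
    (hW₀ : coeffMap (algebraMap K₀ Qb) W₀ = (W : LaurentSeries Qb))
    (n : ℕ) (a b : Fin n → FF N)
    (ha : ∀ i, IsIntegral (Ry Qb y) (a i ^ m * W))
    (hb : ∀ i, IsIntegral (Ry Qb y) (b i ^ m * W⁻¹)) (hab : ∑ i, a i * b i = 1)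
    (hMa : ∀ i, ∃ u ∈ modularFunctionFieldFullC K₀ N,
      coeffMap (algebraMap K₀ Qb) u = (a i : LaurentSeries Qb))
    (hMb : ∀ i, ∃ u ∈ modularFunctionFieldFullC K₀ N,
      coeffMap (algebraMap K₀ Qb) u = (b i : LaurentSeries Qb)) :
    InvKq K₀ N m t W₀ := by
  choose a₀ ha₀ ha₀' using hMa
  choose b₀ hb₀ hb₀' using hMb
  refine ⟨n, a₀, b₀, ha₀, hb₀, fun i => ?_, fun i => ?_, ?_⟩
  · refine isIntegralElem_of_bar N K₀ y (a i ^ m * W) t (a₀ i ^ m * W₀) ht ?_ (ha i)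
    rw [map_mul, map_pow, ha₀', hW₀]
    rfl
  · refine isIntegralElem_of_bar N K₀ y (b i ^ m * W⁻¹) t (b₀ i ^ m * W₀⁻¹) ht ?_ (hb i)
    rw [map_mul, map_pow, map_inv₀, hb₀', hW₀]
    rfl
  · apply coeffMap_injective (algebraMap K₀ Qb) (algebraMap K₀ Qb).injective
    rw [map_sum, map_one]
    have h1 := congrArg (fun x : FF N => (x : LaurentSeries Qb)) hab
    simp only [IntermediateField.coe_sum, IntermediateField.coe_mul, IntermediateField.coe_one]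
      at h1
    rw [← h1]
    refine Finset.sum_congr rfl fun i _ => ?_
    rw [map_mul, ha₀', hb₀']

/-- The `m`-th root of `τ W / W^e` in `K₀((t))`. -/
theorem exists_root [CharZero K₀] (N m e : ℕ) [NeZero N] (hm : 0 < m) (τK : K₀ →+* K₀) (W : FF N)
    (hW0 : W ≠ 0) (hdiv : ∀ P : Place Qb (FF N), (m : ℤ) ∣ P.ord W) (W₀ : LaurentSeries K₀)
    (hW₀ : coeffMap (algebraMap K₀ Qb) W₀ = (W : LaurentSeries Qb)) (d : K₀)
    (hd : algebraMap K₀ Qb d ^ m = (W : LaurentSeries Qb).leadingCoeff) :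
    ∃ v : LaurentSeries K₀, v ^ m = coeffMap τK W₀ / W₀ ^ e := by
  have hφ : Function.Injective (algebraMap K₀ Qb) := (algebraMap K₀ Qb).injective
  have hne : W₀ ≠ 0 := by
    rintro rfl
    rw [map_zero] at hW₀
    exact hW0 (Subtype.ext hW₀.symm)
  have hord : (m : ℤ) ∣ W₀.order := by
    rw [← order_coeffMap _ hφ, hW₀]
    exact GM.dvd_order_coe N m W hW0 hdiv
  have hlead : ∃ u : K₀, u ^ m = W₀.leadingCoeff := by
    refine ⟨d, hφ ?_⟩
    rw [map_pow, ← leadingCoeff_coeffMap _ hφ, hW₀, hd]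
  obtain ⟨v₁, hv₁⟩ := GM.exists_pow_eq_laurent m hm W₀ hne hord hlead
  refine ⟨coeffMap τK v₁ / v₁ ^ e, ?_⟩
  rw [div_pow, ← map_pow, hv₁, ← pow_mul, mul_comm e m, pow_mul, hv₁]

end Generic

/-- `x ∈ ℚ̄((t))` is the base change of an element of `F_{K₀}(N)`. -/
def HasModel (K₀ : Type*) [Field K₀] [Algebra K₀ Qb] (N : ℕ) (x : LaurentSeries Qb) : Prop :=
  ∃ u ∈ modularFunctionFieldFullC K₀ N, coeffMap (algebraMap K₀ Qb) u = x

/-- **The application of `CoreK2`** over a number field `K₀ ⊆ ℚ̄` containing all the data. -/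
theorem core_step2 (M q m : ℕ) [NeZero M] [NeZero q] (hq : q.Prime) (hqm : ¬ q ∣ m) (hm : 0 < m)
    (h : CoreK2 M q m)
    (A : ValuationSubring Qb) (hA : A.LiesOverPrime q)
    (w : FF (M * q) →ₐ[Qb] FF (M * q)) (hw : IsAL M q w)
    (τ : A.decompositionSubgroup ℚ) (hτ : ∀ x : kA A, x ^ (q ^ 2) = x → τ • x = x)
    (e : ℕ) (W : FF (M * q)) (hW0 : W ≠ 0)
    (hdiv : ∀ P : Place Qb (FF (M * q)), (m : ℤ) ∣ P.ord W)
    (y₁ y₂ y₁' y₂' : LaurentSeries A)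
    (hred : coeffMap (resA A) y₁ = coeffMap (resA A) y₂) (hne : coeffMap (resA A) y₂ ≠ 0)
    (hWy : (W : LaurentSeries Qb) * coeffMap A.subtype y₂ = coeffMap A.subtype y₁)
    (hred' : coeffMap (resA A) y₁' = coeffMap (resA A) y₂') (hne' : coeffMap (resA A) y₂' ≠ 0)
    (hWy' : ((w W : FF (M * q)) : LaurentSeries Qb) * coeffMap A.subtype y₂'
      = coeffMap A.subtype y₁')
    (X : FF (M * q)) (hX : (X : LaurentSeries Qb) = castS Qb (Xh M q))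
    (n₁ : ℕ) (a₁ b₁ : Fin n₁ → FF (M * q))
    (ha₁ : ∀ i, IsIntegral (Ry Qb X) (a₁ i ^ m * W))
    (hb₁ : ∀ i, IsIntegral (Ry Qb X) (b₁ i ^ m * W⁻¹)) (hab₁ : ∑ i, a₁ i * b₁ i = 1)
    (n₂ : ℕ) (a₂ b₂ : Fin n₂ → FF (M * q))
    (ha₂ : ∀ i, IsIntegral (Ry Qb X⁻¹) (a₂ i ^ m * W))
    (hb₂ : ∀ i, IsIntegral (Ry Qb X⁻¹) (b₂ i ^ m * W⁻¹)) (hab₂ : ∑ i, a₂ i * b₂ i = 1)
    (K₀ : Type) [Field K₀] [NumberField K₀] [Algebra K₀ Qb]
    (τK : K₀ →+* K₀) (hτK : ∀ x, algebraMap K₀ Qb (τK x) = (τ : GQ) (algebraMap K₀ Qb x))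
    (ξ : K₀) (hξ : IsPrimitiveRoot ξ (q ^ 2 - 1))
    (ζ : K₀) (hζ : IsPrimitiveRoot ζ m) (he : τK ζ = ζ ^ e)
    (d : K₀) (hd : algebraMap K₀ Qb d ^ m = (W : LaurentSeries Qb).leadingCoeff)
    (hMW : HasModel K₀ (M * q) (W : LaurentSeries Qb))
    (hMy₁ : HasModel K₀ (M * q) (coeffMap A.subtype y₁))
    (hMy₂ : HasModel K₀ (M * q) (coeffMap A.subtype y₂))
    (hMy₁' : HasModel K₀ (M * q) (coeffMap A.subtype y₁'))
    (hMy₂' : HasModel K₀ (M * q) (coeffMap A.subtype y₂'))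
    (hMa₁ : ∀ i, HasModel K₀ (M * q) (a₁ i : LaurentSeries Qb))
    (hMb₁ : ∀ i, HasModel K₀ (M * q) (b₁ i : LaurentSeries Qb))
    (hMa₂ : ∀ i, HasModel K₀ (M * q) (a₂ i : LaurentSeries Qb))
    (hMb₂ : ∀ i, HasModel K₀ (M * q) (b₂ i : LaurentSeries Qb)) :
    ∃ h₀ : FF (M * q), h₀ ^ m = galF (M * q) (τ : GQ) W / W ^ e := by
  have hφ : Function.Injective (algebraMap K₀ Qb) := (algebraMap K₀ Qb).injective
  have hdvr : IsDiscreteValuationRing (A0 K₀ A) :=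
    isDiscreteValuationRing_of_numberField _ (A0_ne_top K₀ A hq hA)
  have hfin : Finite (IsLocalRing.ResidueField (A0 K₀ A)) :=
    finite_residueField _ (A0_ne_top K₀ A hq hA)
  obtain ⟨τA, hτA, ν, g, hν, hfrob, hνe⟩ :=
    exists_tauA q m hq hqm A hA τ hτ K₀ τK hτK ξ hξ ζ hζ e he
  obtain ⟨wK, hwK, hwK'⟩ := exists_wK M q hq w hw K₀
  obtain ⟨W₀, hW₀m, hW₀⟩ := hMW
  obtain ⟨u₁, -, hu₁⟩ := hMy₁
  obtain ⟨u₂, -, hu₂⟩ := hMy₂
  obtain ⟨u₁', -, hu₁'⟩ := hMy₁'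
  obtain ⟨u₂', -, hu₂'⟩ := hMy₂'
  -- the primitive root of unity in `A₀`
  have hζA : ζ ∈ A0 K₀ A := by
    show algebraMap K₀ Qb ζ ∈ A
    exact mem_of_pow_eq_one A hm.ne' (by rw [← map_pow, hζ.pow_eq_one, map_one])
  have hζ' : IsPrimitiveRoot (⟨ζ, hζA⟩ : A0 K₀ A) m :=
    IsPrimitiveRoot.of_map_of_injective (f := (A0 K₀ A).subtype) hζ Subtype.val_injective
  -- the two reductions
  have R1 : RedK (IsLocalRing.residue (A0 K₀ A)) W₀ 1 :=
    redK_of_models K₀ A W₀ u₁ u₂ y₁ y₂ hu₁ hu₂ hred hne (by rw [hW₀]; exact hWy)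
  have hwW := hwK' ⟨W₀, hW₀m⟩ W hW₀.symm
  have R2 : RedK (IsLocalRing.residue (A0 K₀ A))
      ((wK ⟨W₀, hW₀m⟩ : modularFunctionFieldFullC K₀ (M * q)) : LaurentSeries K₀) 1 :=
    redK_of_models K₀ A _ u₁' u₂' y₁' y₂' hu₁' hu₂' hred' hne' (by rw [← hwW]; exact hWy')
  -- the two charts
  have hXm : coeffMap (algebraMap K₀ Qb) (castS K₀ (Xh M q)) = (X : LaurentSeries Qb) := by
    rw [hX, GM.coeffMap_castS]
  have I1 : InvKq K₀ (M * q) m (castS K₀ (Xh M q)) W₀ :=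
    invKq_of_models K₀ (M * q) m X W _ W₀ hXm hW₀ n₁ a₁ b₁ ha₁ hb₁ hab₁ hMa₁ hMb₁
  have hXm' : coeffMap (algebraMap K₀ Qb) (castS K₀ (Xh M q))⁻¹
      = ((X⁻¹ : FF (M * q)) : LaurentSeries Qb) := by
    rw [map_inv₀, hXm]
    rfl
  have I2 : InvKq K₀ (M * q) m (castS K₀ (Xh M q))⁻¹ W₀ :=
    invKq_of_models K₀ (M * q) m X⁻¹ W _ W₀ hXm' hW₀ n₂ a₂ b₂ ha₂ hb₂ hab₂ hMa₂ hMb₂
  -- the root
  obtain ⟨v, hv⟩ := exists_root K₀ (M * q) m e hm τK W hW0 hdiv W₀ hW₀ d hd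
  -- application of `CoreK2`
  have k1 := h (A := A0 K₀ A) (K := K₀) (k := IsLocalRing.ResidueField (A0 K₀ A))
    (IsLocalRing.residue (A0 K₀ A)) IsLocalRing.residue_surjective
    (residue_A0_natCast K₀ A hA) ⟨ζ, hζA⟩ hζ' τK τA hτA ν e g hν hfrob hνe wK hwK
  have k2 := k1 ⟨W₀, hW₀m⟩ R1 R2 I1 I2 v hv
  refine ⟨⟨coeffMap (algebraMap K₀ Qb) v, coeffMap_mem_bar K₀ (M * q) k2⟩, ?_⟩
  apply Subtype.ext
  rw [IntermediateField.coe_pow, IntermediateField.coe_div, IntermediateField.coe_pow, coe_galF]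
  show (coeffMap (algebraMap K₀ Qb) v) ^ m = _
  rw [← map_pow, hv, map_div₀, map_pow, hW₀, coeffMap_coeffMap, ← hW₀, coeffMap_coeffMap]
  congr 1
  exact coeffMap_congr (RingHom.ext hτK) W₀

end Fermat.Agent.SS.GM2
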